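/-
S27, Package A (Riemann's theorem for function fields in the Prelude's repartition language).
Shared definitions.  FROZEN (helper8976).  Everything here is Mathlib + Prelude only.

Notation used in the package:
* `RelFinite A B`, `relfinrank A B` : finiteness / dimension of `B ⧸ (A ⊓ B)` for submodules of a
  vector space (only used with `A ≤ B`);
* `ell D = dim L(D)`, `spec D = dim H¹(D)`;
* `Hyp K F` : the standing hypotheses (all of them follow from `IsCurveOver K F`,
  `Algebra.EssFiniteType K F`, `IsAlgClosed K`, `CharZero K`; see `Bridge.lean`).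
-/
import Mathlib
import Fermat.Prelude.Def_AlgebraicCurve_Repartitions

set_option autoImplicit false

open AlgebraicCurve IntermediateField

namespace Fermat.Agent.S27.A

section LinAlg

variable {K : Type*} [Field K] {M : Type*} [AddCommGroup M] [Module K M]

/-- `B ⧸ (A ⊓ B)` is finite-dimensional. -/
def RelFinite (A B : Submodule K M) : Prop := Module.Finite K (↥B ⧸ A.submoduleOf B)

/-- The dimension of `B ⧸ (A ⊓ B)`. -/
noncomputable def relfinrank (A B : Submodule K M) : ℕ :=
  Module.finrank K (↥B ⧸ A.submoduleOf B)

end LinAlg

variable {K F : Type*} [Field K] [Field F] [Algebra K F]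

/-- `B` is the pole divisor of `x`. -/
def IsPoleDivisor (x : F) (B : Divisor K F) : Prop :=
  ∀ v : Place K F, B v = max 0 (-(v.ord x))

/-- `E` is the divisor of `f`. -/
def IsDivisorOf (f : F) (E : Divisor K F) : Prop :=
  ∀ v : Place K F, E v = v.ord f

/-- Standing hypotheses of Package A. -/
structure Hyp (K F : Type*) [Field K] [Field F] [Algebra K F] : Prop where
  principal : HasPrincipalDivisors K F
  finiteResidue : ∀ v : Place K F, Module.Finite K v.ResidueField
  supply : ∃ x : F, Transcendental K x ∧ FiniteDimensional K⟮x⟯ F ∧
    ∃ B : Divisor K F, IsPoleDivisor x B ∧ B.degree = (Module.finrank K⟮x⟯ F : ℤ)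

/-- `l(D) = dim_K L(D)`. -/
noncomputable def ell (D : Divisor K F) : ℕ := Module.finrank K (riemannRochSpace D)

/-- `i(D) = dim_K H¹(D)`. -/
noncomputable def spec (D : Divisor K F) : ℕ := Module.finrank K (H1 D)

/-- The diagonal embedding of `F` into the repartitions, as a `K`-linear map. -/
noncomputable def diag : F →ₗ[K] ↥(repartitions K F) :=
  (Algebra.linearMap F ↥(repartitions K F)).restrictScalars K

end Fermat.Agent.S27.A
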