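/-
S27 Package A, leaf BRIDGE: the standing hypotheses `Hyp K F` hold in the S27 setting.
Statements FROZEN (skeleton of helper8976); proofs by helper4826.
* `exists_transcendental_finite` (= T0 of helper9506's route).  Proof used here (differentials,
  no places): take a transcendence basis `s` of `F/K`.  If `x ≠ y` are in `s`, put
  `K₁ = K(s \ {y})`, `K₂ = K(s \ {x})`; by the landed `A564.KR.D_ne_zero` (characteristic zero)
  `D y ≠ 0` in `Ω[F/K₁]` and `D x ≠ 0` in `Ω[F/K₂]`, while `D x = 0` in `Ω[F/K₁]`.  Pushing a
  generator of the rank one module `Ω[F/K]` through `Ω[F/K] → Ω[F/Kᵢ]` gives a contradiction.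
  If `s = ∅` then `F = K` and `Ω[F/K] = 0`.  So `s = {x}`; `F/K(x)` is algebraic and
  essentially of finite type, hence finite.
* `exists_poleDivisor`: landed S24 library, `A564.zeros_sum_of_adjoin_eq` applied to `x⁻¹`
  (`A564.adjoin_simple_inv`, `A564.transcendental_inv`).
-/
import Fermat.Agent.S27.A.Defs
import Fermat.Agent.S24.A564.RHAssembly
import Fermat.Prelude.Def_AlgebraicCurve_IsCurveOver

set_option autoImplicit false

open AlgebraicCurve IntermediateField KaehlerDifferential

namespace Fermat.Agent.S27.A

variable {K F : Type*} [Field K] [Field F] [Algebra K F]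

/-- Algebraicity passes to a larger base field (given as an intermediate field over another
base). -/
theorem bridge_isAlgebraic_of_le {L K1 : IntermediateField K F} (M : IntermediateField K1 F)
    (hLM : ∀ a ∈ L, a ∈ M) [Algebra.IsAlgebraic L F] : Algebra.IsAlgebraic M F := by
  let i : L →+* M :=
    { toFun := fun a => ⟨a.1, hLM a.1 a.2⟩
      map_one' := rfl
      map_mul' := fun _ _ => rfl
      map_zero' := rfl
      map_add' := fun _ _ => rfl }
  let : Algebra L M := i.toAlgebra
  have : IsScalarTower L M F := IsScalarTower.of_algebraMap_eq (fun a => rfl)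
  exact Algebra.IsAlgebraic.tower_top (K := L) (L := M) (A := F)

/-- If `y` belongs to a transcendence basis `s` of `F/K` (characteristic zero), then `D y ≠ 0`
in `Ω[F/K(s \ {y})]`. -/
theorem bridge_D_ne_zero [CharZero K] {s : Set F} (hs : IsTranscendenceBasis K ((↑) : s → F))
    {y : F} (hy : y ∈ s) : D (adjoin K (s \ {y})) F y ≠ 0 := by
  have htr : Transcendental (adjoin K (s \ {y})) y := by
    rw [IntermediateField.transcendental_adjoin_iff]
    have h := hs.1.transcendental_adjoin (s := {i : s | (i : F) ≠ y}) (i := ⟨y, hy⟩) (by simp)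
    have himg : ((↑) : s → F) '' {i : s | (i : F) ≠ y} = s \ {y} := by
      ext z
      simp only [Set.mem_image, Set.mem_ofPred_eq, Subtype.exists, exists_and_right, exists_eq_right,
        Set.mem_sdiff, Set.mem_singleton_iff]
      constructor
      · rintro ⟨hz, hzy⟩; exact ⟨hz, hzy⟩
      · rintro ⟨hz, hzy⟩; exact ⟨hz, hzy⟩
    rw [himg] at h
    exact h
  have halgL : Algebra.IsAlgebraic (adjoin K (Set.range ((↑) : s → F))) F := hs.isAlgebraic_field
  have halg : Algebra.IsAlgebraic (adjoin K (s \ {y}))⟮y⟯ F := by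
    refine bridge_isAlgebraic_of_le (L := adjoin K (Set.range ((↑) : s → F))) _ ?_
    intro a ha
    rw [Subtype.range_coe] at ha
    have hle : adjoin K s ≤ ((adjoin K (s \ {y}))⟮y⟯).restrictScalars K := by
      rw [adjoin_le_iff]
      intro z hz
      by_cases hzy : z = y
      · subst hzy
        exact mem_adjoin_simple_self _ z
      · have hz1 : z ∈ adjoin K (s \ {y}) := subset_adjoin K _ ⟨hz, hzy⟩
        exact (adjoin (adjoin K (s \ {y})) {y}).algebraMap_mem ⟨z, hz1⟩
    exact hle ha
  have : CharZero (adjoin K (s \ {y})) :=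
    charZero_of_injective_algebraMap (algebraMap K (adjoin K (s \ {y}))).injective
  exact Fermat.Agent.S24.A564.KR.D_ne_zero y htr

/-- **T0 (core).** A field `F`, essentially of finite type over an algebraically closed field `K`
of characteristic zero, whose module of Kähler differentials has rank one, is a function field in
one variable: there is a transcendental `x` with `F` finite over `K(x)`. -/
theorem bridge_exists_transcendental_of_finrank_kaehler [IsAlgClosed K] [CharZero K]
    [Algebra.EssFiniteType K F] (h1 : Module.finrank F Ω[F⁄K] = 1) :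
    ∃ x : F, Transcendental K x ∧ FiniteDimensional K⟮x⟯ F := by
  obtain ⟨s, hs⟩ := exists_isTranscendenceBasis K F
  obtain ⟨ω0, hω0, hgen⟩ := finrank_eq_one_iff'.mp h1
  -- `s` has at most one element
  have hsub : ∀ x ∈ s, ∀ y ∈ s, x = y := by
    intro x hx y hy
    by_contra hxy
    have hy1 := bridge_D_ne_zero hs hy
    have hx2 := bridge_D_ne_zero hs hx
    obtain ⟨a, ha⟩ := hgen (D K F x)
    obtain ⟨b, hb⟩ := hgen (D K F y)
    have e1 : KaehlerDifferential.map K (adjoin K (s \ {y})) F F (D K F y) =
        D (adjoin K (s \ {y})) F y := by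
      rw [KaehlerDifferential.map_D]; rfl
    have e1' : KaehlerDifferential.map K (adjoin K (s \ {y})) F F (D K F x) = 0 := by
      rw [KaehlerDifferential.map_D]
      have hx1 : x ∈ adjoin K (s \ {y}) := subset_adjoin K _ ⟨hx, hxy⟩
      exact (D (adjoin K (s \ {y})) F).map_algebraMap ⟨x, hx1⟩
    have e2 : KaehlerDifferential.map K (adjoin K (s \ {x})) F F (D K F x) =
        D (adjoin K (s \ {x})) F x := by
      rw [KaehlerDifferential.map_D]; rfl
    -- `a = 0`
    have ha0 : a = 0 := by
      by_contra ha0
      have h3 : KaehlerDifferential.map K (adjoin K (s \ {y})) F F ω0 = 0 := by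
        have := e1'
        rw [← ha, map_smul] at this
        exact (smul_eq_zero.mp this).resolve_left ha0
      apply hy1
      rw [← e1, ← hb, map_smul, h3, smul_zero]
    apply hx2
    rw [← e2, ← ha, ha0, zero_smul, map_zero]
  -- `s` is nonempty
  have hne : s.Nonempty := by
    by_contra hemp
    rw [Set.not_nonempty_iff_eq_empty] at hemp
    have halgK : Algebra.IsAlgebraic K F := by
      rw [← trdeg_eq_zero_iff, ← hs.cardinalMk_eq_trdeg, hemp]
      simp
    have hD : ∀ f : F, D K F f = 0 := by
      intro f
      obtain ⟨c, rfl⟩ := (IsAlgClosed.algebraMap_bijective_of_isIntegral (k := K) (K := F)).2 f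
      exact (D K F).map_algebraMap c
    have htop : ω0 ∈ Submodule.span F (Set.range (D K F)) := by
      rw [KaehlerDifferential.span_range_derivation]; trivial
    have hbot : Submodule.span F (Set.range (D K F)) = ⊥ := by
      rw [Submodule.span_eq_bot]
      rintro _ ⟨f, rfl⟩
      exact hD f
    rw [hbot, Submodule.mem_bot] at htop
    exact hω0 htop
  obtain ⟨x, hx⟩ := hne
  have hs' : s = {x} := by
    ext z
    simp only [Set.mem_singleton_iff]
    exact ⟨fun hz => hsub z hz x hx, fun hz => hz ▸ hx⟩
  refine ⟨x, hs.1.transcendental ⟨x, hx⟩, ?_⟩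
  have halg : Algebra.IsAlgebraic (adjoin K (Set.range ((↑) : s → F))) F := hs.isAlgebraic_field
  rw [Subtype.range_coe, hs'] at halg
  have : Algebra.EssFiniteType K⟮x⟯ F := Algebra.EssFiniteType.of_comp K K⟮x⟯ F
  exact Algebra.finite_of_essFiniteType_of_isAlgebraic

theorem exists_transcendental_finite [IsAlgClosed K] [CharZero K] [IsCurveOver K F]
    [Algebra.EssFiniteType K F] :
    ∃ x : F, Transcendental K x ∧ FiniteDimensional K⟮x⟯ F :=
  bridge_exists_transcendental_of_finrank_kaehler IsCurveOver.finrank_kaehler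

theorem exists_poleDivisor [IsAlgClosed K] [CharZero K] (x : F) (hx : Transcendental K x)
    [FiniteDimensional K⟮x⟯ F] (hdeg : ∀ v : Place K F, v.deg = 1) :
    ∃ B : Divisor K F, IsPoleDivisor x B ∧ B.degree = (Module.finrank K⟮x⟯ F : ℤ) := by
  classical
  obtain ⟨S, hS, hsum⟩ := Fermat.Agent.S24.A564.zeros_sum_of_adjoin_eq (x⁻¹)
    (Fermat.Agent.S24.A564.transcendental_inv hx) K⟮x⟯ (Fermat.Agent.S24.A564.adjoin_simple_inv x)
  refine ⟨∑ v ∈ S, Finsupp.single v (v.ord x⁻¹), ?_, ?_⟩
  · intro v
    rw [Finsupp.finsetSum_apply]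
    by_cases hv : v ∈ S
    · rw [Finset.sum_eq_single v (fun w _ hwv => Finsupp.single_eq_of_ne' hwv)
        (fun h => absurd hv h), Finsupp.single_eq_same]
      have h1 := (hS v).mp hv
      rw [Place.ord_inv] at h1 ⊢
      rw [max_eq_right h1.le]
    · rw [Finset.sum_eq_zero]
      · have h1 : ¬ 0 < v.ord x⁻¹ := fun h => hv ((hS v).mpr h)
        rw [Place.ord_inv] at h1
        rw [max_eq_left (not_lt.mp h1)]
      · intro w hw
        exact Finsupp.single_eq_of_ne' (fun h => hv (h ▸ hw))
  · rw [map_sum, ← hsum]
    refine Finset.sum_congr rfl fun v _ => ?_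
    rw [Divisor.degree_single, hdeg v]
    simp

/-- The standing hypotheses hold in the setting of S27. -/
theorem hyp_of_isCurveOver [IsAlgClosed K] [CharZero K] [IsCurveOver K F]
    [Algebra.EssFiniteType K F] : Hyp K F := by
  obtain ⟨x, hx, hfin⟩ := exists_transcendental_finite (K := K) (F := F)
  exact
    { principal := IsCurveOver.hasPrincipalDivisors
      finiteResidue := IsCurveOver.finiteResidue
      supply := ⟨x, hx, hfin,
        exists_poleDivisor x hx IsCurveOver.forall_deg_eq_one_of_isAlgClosed⟩ }

end Fermat.Agent.S27.A
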