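/-
S27 Package A, leaf LOCAL (A3, second half): `dim_K A(D')/A(D) = deg D' - deg D` for `D ≤ D'`.
Statements FROZEN (skeleton of helper8976); proofs by helper242.
Proof of the one-step lemma: with `π` a uniformizer at `P` and `n = D P + 1`, the map
`A(D + P) → ResidueField P`, `α ↦ residue (π^n * α P)` is `K`-linear, surjective (the repartition
equal to `π^(-n) * a` at `P` and `0` elsewhere has finitely many poles) with kernel `A(D)`.
Then induct on `∑ (D' - D)` using `relFinite_trans` / `relfinrank_trans` of LinAlg.lean.
-/
import Fermat.Agent.S27.A.LinAlg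

set_option autoImplicit false

open AlgebraicCurve

namespace Fermat.Agent.S27.A

variable {K F : Type*} [Field K] [Field F] [Algebra K F]

namespace L242

theorem mem_of_ord_nonneg (v : Place K F) {f : F} (h : 0 ≤ v.ord f) :
    f ∈ v.toValuationSubring := by
  rcases eq_or_ne f 0 with rfl | hf
  · exact zero_mem _
  obtain ⟨π, hπ⟩ := IsDiscreteValuationRing.exists_irreducible v.toValuationSubring
  obtain ⟨u, hu⟩ := v.exists_unit_mul_zpow hf hπ
  rw [hu]
  obtain ⟨n, hn⟩ := Int.eq_ofNat_of_zero_le h
  rw [hn, zpow_natCast]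
  exact mul_mem (u : v.toValuationSubring).2 (pow_mem π.2 n)

theorem ord_nonneg_of_mem (v : Place K F) {f : F} (h : f ∈ v.toValuationSubring) :
    0 ≤ v.ord f := by
  rcases eq_or_ne f 0 with rfl | hf
  · simp
  have := (v.adicValuation_le_one_iff (f := f)).mp (v.adicValuation_le_one_of_mem h)
  tauto

theorem exists_uniformizer (v : Place K F) : ∃ π : F, π ≠ 0 ∧ v.ord π = 1 := by
  obtain ⟨π, hπ⟩ := IsDiscreteValuationRing.exists_irreducible v.toValuationSubring
  refine ⟨(π : F), ?_, v.ord_coe_irreducible hπ⟩
  simpa using hπ.ne_zero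

/-- An element of the valuation ring has zero residue iff it is zero or has positive order. -/
theorem residue_eq_zero_iff (v : Place K F) (y : v.toValuationSubring) :
    IsLocalRing.residue v.toValuationSubring y = 0 ↔ (y : F) = 0 ∨ 1 ≤ v.ord (y : F) := by
  rw [IsLocalRing.residue_eq_zero_iff]
  constructor
  · intro hy
    by_cases hy0 : y = 0
    · left; simp [hy0]
    right
    obtain ⟨π, hπ⟩ := IsDiscreteValuationRing.exists_irreducible v.toValuationSubring
    rw [hπ.maximalIdeal_eq, Ideal.mem_span_singleton'] at hy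
    obtain ⟨b, rfl⟩ := hy
    have hb0 : b ≠ 0 := left_ne_zero_of_mul hy0
    have hπ0 : π ≠ 0 := right_ne_zero_of_mul hy0
    have hbF : (b : F) ≠ 0 := by simpa using hb0
    have hπF : (π : F) ≠ 0 := by simpa using hπ0
    have : ((b * π : v.toValuationSubring) : F) = (b : F) * (π : F) := rfl
    rw [this, v.ord_mul hbF hπF, v.ord_coe_irreducible hπ]
    have := ord_nonneg_of_mem v b.2
    omega
  · rintro (hy | hy)
    · have : y = 0 := by ext; simpa using hy
      rw [this]; exact zero_mem _
    · by_contra hmem
      have hu : IsUnit y := by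
        by_contra hnu
        exact hmem ((IsLocalRing.mem_maximalIdeal y).mpr hnu)
      have := v.ord_coe_unit hu.unit
      rw [IsUnit.unit_spec] at this
      omega

theorem ord_zpow_mul (v : Place K F) {π : F} (hπ0 : π ≠ 0) (hπ : v.ord π = 1) (n : ℤ) {x : F}
    (hx : x ≠ 0) : v.ord (π ^ n * x) = n + v.ord x := by
  rw [v.ord_mul (zpow_ne_zero n hπ0) hx, v.ord_zpow, hπ, mul_one]

theorem coord_mem (D : Divisor K F) (P : Place K F) {π : F} (hπ0 : π ≠ 0) (hπ : P.ord π = 1)
    (α : repartitionsOf (D + Finsupp.single P 1)) :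
    π ^ (D P + 1) * ((α : ↥(repartitions K F)) : Place K F → F) P ∈ P.toValuationSubring := by
  have h := (mem_repartitionsOf_iff.mp α.2) P
  rw [Finsupp.add_apply, Finsupp.single_eq_same] at h
  rcases h with h | h
  · rw [h, mul_zero]; exact zero_mem _
  · by_cases hx : ((α : ↥(repartitions K F)) : Place K F → F) P = 0
    · rw [hx, mul_zero]; exact zero_mem _
    apply mem_of_ord_nonneg
    rw [ord_zpow_mul P hπ0 hπ _ hx]
    omega

/-- The residue map `A(D + P) → κ(P)`, `α ↦ residue (π^(D P + 1) * α_P)`. -/
noncomputable def resMap (D : Divisor K F) (P : Place K F) {π : F} (hπ0 : π ≠ 0)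
    (hπ : P.ord π = 1) :
    ↥(repartitionsOf (D + Finsupp.single P 1)) →ₗ[K] P.ResidueField where
  toFun α := IsLocalRing.residue P.toValuationSubring ⟨_, coord_mem D P hπ0 hπ α⟩
  map_add' α β := by
    rw [← map_add]
    congr 1
    ext
    show π ^ (D P + 1) * (((α + β : repartitionsOf (D + Finsupp.single P 1)) :
      ↥(repartitions K F)) : Place K F → F) P = _
    simp [mul_add]
  map_smul' c α := by
    simp only [RingHom.id_apply]
    rw [Algebra.smul_def, IsScalarTower.algebraMap_apply K P.toValuationSubring P.ResidueField,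
      IsLocalRing.ResidueField.algebraMap_eq, ← map_mul]
    congr 1
    ext
    show π ^ (D P + 1) * (((c • α : repartitionsOf (D + Finsupp.single P 1)) :
      ↥(repartitions K F)) : Place K F → F) P = _
    simp [Algebra.smul_def]
    ring

theorem resMap_apply (D : Divisor K F) (P : Place K F) {π : F} (hπ0 : π ≠ 0)
    (hπ : P.ord π = 1) (α : repartitionsOf (D + Finsupp.single P 1)) :
    resMap D P hπ0 hπ α = IsLocalRing.residue P.toValuationSubring
      ⟨π ^ (D P + 1) * ((α : ↥(repartitions K F)) : Place K F → F) P, coord_mem D P hπ0 hπ α⟩ :=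
  rfl

theorem ker_resMap (D : Divisor K F) (P : Place K F) {π : F} (hπ0 : π ≠ 0)
    (hπ : P.ord π = 1) :
    LinearMap.ker (resMap D P hπ0 hπ) =
      (repartitionsOf D).submoduleOf (repartitionsOf (D + Finsupp.single P 1)) := by
  classical
  ext α
  rw [LinearMap.mem_ker, resMap_apply, residue_eq_zero_iff]
  have hmem : α ∈ (repartitionsOf D).submoduleOf (repartitionsOf (D + Finsupp.single P 1)) ↔
      (α : ↥(repartitions K F)) ∈ repartitionsOf D := Iff.rfl
  rw [hmem, mem_repartitionsOf_iff]
  have hα := mem_repartitionsOf_iff.mp α.2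
  show π ^ (D P + 1) * ((α : ↥(repartitions K F)) : Place K F → F) P = 0 ∨
      1 ≤ P.ord (π ^ (D P + 1) * ((α : ↥(repartitions K F)) : Place K F → F) P) ↔
    ∀ v : Place K F, ((α : ↥(repartitions K F)) : Place K F → F) v = 0 ∨
      -D v ≤ v.ord (((α : ↥(repartitions K F)) : Place K F → F) v)
  constructor
  · intro h v
    by_cases hv : v = P
    · subst hv
      by_cases hx : ((α : ↥(repartitions K F)) : Place K F → F) v = 0
      · exact Or.inl hx
      right
      rcases h with h | h
      · exact absurd ((mul_eq_zero.mp h).resolve_left (zpow_ne_zero _ hπ0)) hx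
      · rw [ord_zpow_mul v hπ0 hπ _ hx] at h
        omega
    · have := hα v
      have h0 : (Finsupp.single P (1 : ℤ)) v = 0 := Finsupp.single_apply_eq_zero.mpr
        (fun hh => absurd hh hv)
      rwa [Finsupp.add_apply, h0, add_zero] at this
  · intro h
    by_cases hx : ((α : ↥(repartitions K F)) : Place K F → F) P = 0
    · left; rw [hx, mul_zero]
    right
    rw [ord_zpow_mul P hπ0 hπ _ hx]
    have := (h P).resolve_left hx
    omega

theorem resMap_surjective (D : Divisor K F) (P : Place K F) {π : F} (hπ0 : π ≠ 0)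
    (hπ : P.ord π = 1) : Function.Surjective (resMap D P hπ0 hπ) := by
  classical
  intro r
  obtain ⟨a, rfl⟩ := IsLocalRing.residue_surjective r
  set β : Place K F → F := fun v => if v = P then π ^ (-(D P + 1)) * (a : F) else 0 with hβ
  have hle : ∀ v : Place K F, β v = 0 ∨
      -((D + Finsupp.single P 1 : Divisor K F) v) ≤ v.ord (β v) := by
    intro v
    by_cases hv : v = P
    · subst hv
      by_cases ha : (a : F) = 0
      · left; simp [hβ, ha]
      right
      have : β v = π ^ (-(D v + 1)) * (a : F) := by simp [hβ]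
      rw [this, ord_zpow_mul v hπ0 hπ _ ha, Finsupp.add_apply, Finsupp.single_eq_same]
      have := ord_nonneg_of_mem v a.2
      omega
    · left; simp [hβ, hv]
  have hβmem : β ∈ repartitions K F :=
    mem_repartitions_of_forall_le_exp (D + Finsupp.single P 1) β
      (fun v => v.adicValuation_le_exp_iff.mpr (hle v))
  have hβmem2 : (⟨β, hβmem⟩ : ↥(repartitions K F)) ∈ repartitionsOf (D + Finsupp.single P 1) :=
    mem_repartitionsOf_iff.mpr hle
  refine ⟨⟨⟨β, hβmem⟩, hβmem2⟩, ?_⟩
  rw [resMap_apply]
  congr 1
  ext
  show π ^ (D P + 1) * β P = (a : F)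
  have : β P = π ^ (-(D P + 1)) * (a : F) := by simp [hβ]
  rw [this, ← mul_assoc, ← zpow_add₀ hπ0]
  simp

end L242

namespace L242

section Generic

variable {M N : Type*} [AddCommGroup M] [Module K M] [AddCommGroup N] [Module K N]

/-- A surjection `B → N` with kernel `A ⊓ B` identifies `B/(A ⊓ B)` with `N`. -/
noncomputable def quotEquivOfSurj (A B : Submodule K M) (φ : ↥B →ₗ[K] N)
    (hφ : Function.Surjective φ) (hker : LinearMap.ker φ = A.submoduleOf B) :
    (↥B ⧸ A.submoduleOf B) ≃ₗ[K] N :=
  (Submodule.quotEquivOfEq _ _ hker.symm).trans (φ.quotKerEquivOfSurjective hφ)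

theorem relFinite_of_surj (A B : Submodule K M) (φ : ↥B →ₗ[K] N)
    (hφ : Function.Surjective φ) (hker : LinearMap.ker φ = A.submoduleOf B)
    [Module.Finite K N] : RelFinite A B :=
  Module.Finite.equiv (quotEquivOfSurj A B φ hφ hker).symm

theorem relfinrank_of_surj (A B : Submodule K M) (φ : ↥B →ₗ[K] N)
    (hφ : Function.Surjective φ) (hker : LinearMap.ker φ = A.submoduleOf B) :
    relfinrank A B = Module.finrank K N :=
  (quotEquivOfSurj A B φ hφ hker).finrank_eq

end Generic

end L242

theorem relFinite_single (hres : ∀ v : Place K F, Module.Finite K v.ResidueField)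
    (D : Divisor K F) (P : Place K F) :
    RelFinite (repartitionsOf D) (repartitionsOf (D + Finsupp.single P 1)) := by
  obtain ⟨π, hπ0, hπ⟩ := L242.exists_uniformizer P
  have := hres P
  exact L242.relFinite_of_surj _ _ (L242.resMap D P hπ0 hπ) (L242.resMap_surjective D P hπ0 hπ)
    (L242.ker_resMap D P hπ0 hπ)

theorem relfinrank_single (hres : ∀ v : Place K F, Module.Finite K v.ResidueField)
    (D : Divisor K F) (P : Place K F) :
    relfinrank (repartitionsOf D) (repartitionsOf (D + Finsupp.single P 1)) = P.deg := by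
  obtain ⟨π, hπ0, hπ⟩ := L242.exists_uniformizer P
  exact L242.relfinrank_of_surj _ _ (L242.resMap D P hπ0 hπ) (L242.resMap_surjective D P hπ0 hπ)
    (L242.ker_resMap D P hπ0 hπ)

namespace L242

/-- The total sum of the coefficients of a divisor. -/
noncomputable def total (E : Divisor K F) : ℤ := E.sum fun _ k => k

theorem total_add (E E' : Divisor K F) : total (E + E') = total E + total E' := by
  unfold total
  exact Finsupp.sum_add_index' (fun _ => rfl) (fun _ _ _ => rfl)

theorem total_single (P : Place K F) (k : ℤ) : total (Finsupp.single P k) = k := by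
  unfold total
  simp

theorem total_nonneg {E : Divisor K F} (hE : 0 ≤ E) : 0 ≤ total E := by
  unfold total
  exact Finset.sum_nonneg fun v _ => by simpa using Finsupp.le_def.mp hE v

theorem eq_zero_of_total_eq_zero {E : Divisor K F} (hE : 0 ≤ E) (h : total E = 0) : E = 0 := by
  unfold total Finsupp.sum at h
  have h2 := (Finset.sum_eq_zero_iff_of_nonneg
    (fun v _ => by simpa using Finsupp.le_def.mp hE v)).mp h
  ext v
  by_cases hv : v ∈ E.support
  · simpa using h2 v hv
  · simpa [Finsupp.mem_support_iff] using hv

theorem main (hres : ∀ v : Place K F, Module.Finite K v.ResidueField) :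
    ∀ (n : ℕ) (D D' : Divisor K F), D ≤ D' → total (D' - D) = n →
      RelFinite (repartitionsOf D) (repartitionsOf D') ∧
      (relfinrank (repartitionsOf D) (repartitionsOf D') : ℤ) = D'.degree - D.degree := by
  classical
  intro n
  induction n with
  | zero =>
    intro D D' hle htot
    have h0 : D' - D = 0 :=
      eq_zero_of_total_eq_zero (sub_nonneg.mpr hle) (by simpa using htot)
    have hDD : D' = D := sub_eq_zero.mp h0
    subst hDD
    refine ⟨relFinite_of_le le_rfl, ?_⟩
    rw [relfinrank_eq_zero_of_le le_rfl]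
    simp
  | succ n ih =>
    intro D D' hle htot
    have hne : D' - D ≠ 0 := by
      intro h
      rw [h] at htot
      simp [total] at htot
      omega
    obtain ⟨P, hP⟩ : ∃ P, (D' - D) P ≠ 0 := by
      by_contra hcon
      push Not at hcon
      exact hne (Finsupp.ext hcon)
    have hP' : D P + 1 ≤ D' P := by
      have h1 := Finsupp.le_def.mp hle P
      have h2 : D' P - D P ≠ 0 := by simpa using hP
      omega
    have hle1 : D ≤ D + Finsupp.single P 1 := by
      rw [Finsupp.le_def]; intro v
      rw [Finsupp.add_apply]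
      by_cases hv : v = P
      · subst hv; simp
      · have h0 : (Finsupp.single P (1 : ℤ)) v = 0 := Finsupp.single_apply_eq_zero.mpr
          (fun hh => absurd hh hv)
        rw [h0, add_zero]
    have hle2 : D + Finsupp.single P 1 ≤ D' := by
      rw [Finsupp.le_def]; intro v
      rw [Finsupp.add_apply]
      by_cases hv : v = P
      · subst hv; simpa using hP'
      · have h0 : (Finsupp.single P (1 : ℤ)) v = 0 := Finsupp.single_apply_eq_zero.mpr
          (fun hh => absurd hh hv)
        rw [h0, add_zero]
        exact Finsupp.le_def.mp hle v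
    have htot2 : total (D' - (D + Finsupp.single P 1)) = n := by
      have : D' - D = (D' - (D + Finsupp.single P 1)) + Finsupp.single P 1 := by abel
      rw [this, total_add, total_single] at htot
      push_cast at htot
      omega
    obtain ⟨hf2, hr2⟩ := ih (D + Finsupp.single P 1) D' hle2 htot2
    have hf1 := relFinite_single hres D P
    have hr1 := relfinrank_single hres D P
    have hm1 := repartitionsOf_mono hle1
    have hm2 := repartitionsOf_mono hle2
    refine ⟨relFinite_trans hm1 hm2 hf1 hf2, ?_⟩
    rw [relfinrank_trans hm1 hm2 hf1 hf2, hr1]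
    push_cast
    rw [hr2, map_add, Divisor.degree_single]
    ring

end L242

theorem relFinite_repartitionsOf (hres : ∀ v : Place K F, Module.Finite K v.ResidueField)
    {D D' : Divisor K F} (h : D ≤ D') :
    RelFinite (repartitionsOf D) (repartitionsOf D') := by
  have h0 := L242.total_nonneg (sub_nonneg.mpr h)
  exact (L242.main hres (L242.total (D' - D)).toNat D D' h (Int.toNat_of_nonneg h0).symm).1

theorem relfinrank_repartitionsOf (hres : ∀ v : Place K F, Module.Finite K v.ResidueField)
    {D D' : Divisor K F} (h : D ≤ D') :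
    (relfinrank (repartitionsOf D) (repartitionsOf D') : ℤ) = D'.degree - D.degree := by
  have h0 := L242.total_nonneg (sub_nonneg.mpr h)
  exact (L242.main hres (L242.total (D' - D)).toNat D D' h (Int.toNat_of_nonneg h0).symm).2

end Fermat.Agent.S27.A
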