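/-
S27 Package A, leaf LSPACE (A2): the spaces `L(D)`.
Statements FROZEN.
* `riemannRochSpace_eq_bot`: `f ≠ 0`, `f ∈ L(D)` ⟹ `div f + D ≥ 0` ⟹ `deg D ≥ 0`
  (principal divisors have degree 0 by `HasPrincipalDivisors`).
* `L(D)` corresponds to `A(D) ⊓ F` under the diagonal embedding, so
  `dim L(D')/L(D) ≤ dim A(D')/A(D) = deg D' - deg D` (LinAlg `relfinrank_modular`, Local).
* finite-dimensionality: go down to a divisor of negative degree (needs one place).
-/
import Fermat.Agent.S27.A.Local

set_option autoImplicit false

open AlgebraicCurve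

namespace Fermat.Agent.S27.A

variable {K F : Type*} [Field K] [Field F] [Algebra K F]

theorem diag_apply (f : F) (v : Place K F) :
    ((diag (K := K) f : ↥(repartitions K F)) : Place K F → F) v = f := by
  rfl

theorem diag_injective [Nonempty (Place K F)] :
    Function.Injective (diag (K := K) (F := F)) := by
  intro f g h
  obtain ⟨v⟩ := ‹Nonempty (Place K F)›
  have h1 := congrArg (fun α : ↥(repartitions K F) => (α : Place K F → F) v) h
  simpa only [diag_apply] using h1

theorem range_diag :
    LinearMap.range (diag (K := K) (F := F)) = principalRepartitions K F := by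
  ext α
  simp only [LinearMap.mem_range, principalRepartitions, Submodule.restrictScalars_mem]
  rfl

theorem map_diag_riemannRochSpace (D : Divisor K F) :
    (riemannRochSpace D).map diag = repartitionsOf D ⊓ principalRepartitions K F := by
  ext α
  simp only [Submodule.mem_map, Submodule.mem_inf]
  constructor
  · rintro ⟨f, hf, rfl⟩
    refine ⟨fun v => ?_, ?_⟩
    · show v.adicValuation (((diag (K := K) f : ↥(repartitions K F)) : Place K F → F) v) ≤ _
      rw [diag_apply]
      exact hf v
    · rw [← range_diag]
      exact LinearMap.mem_range_self _ f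
  · rintro ⟨hα, hp⟩
    rw [← range_diag] at hp
    obtain ⟨f, rfl⟩ := hp
    refine ⟨f, fun v => ?_, rfl⟩
    have := hα v
    rwa [diag_apply] at this

theorem riemannRochSpace_mono {D D' : Divisor K F} (h : D ≤ D') :
    riemannRochSpace D ≤ riemannRochSpace D' := by
  intro f hf v
  exact (hf v).trans (WithZero.exp_le_exp.mpr (Finsupp.le_def.mp h v))

/-- The degree of an effective divisor is nonnegative. -/
theorem lspace_degree_nonneg {D : Divisor K F} (h : 0 ≤ D) : 0 ≤ D.degree := by
  have hD : D.degree = D.sum fun v n => n * (v.deg : ℤ) := by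
    simp [Divisor.degree, Finsupp.liftAddHom_apply]
  rw [hD]
  refine Finset.sum_nonneg fun v _ => ?_
  exact mul_nonneg (Finsupp.le_def.mp h v) (Int.natCast_nonneg _)

theorem riemannRochSpace_eq_bot [HasPrincipalDivisors K F] {D : Divisor K F}
    (hD : D.degree < 0) : riemannRochSpace D = ⊥ := by
  rw [eq_bot_iff]
  intro f hf
  rw [Submodule.mem_bot]
  by_contra hf0
  obtain ⟨E, hE, hE0⟩ := HasPrincipalDivisors.exists_divisor (K := K) f hf0
  have hnn : 0 ≤ E + D := by
    rw [Finsupp.le_def]
    intro v
    have h1 := (mem_riemannRochSpace_iff.mp hf v).resolve_left hf0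
    simp only [Finsupp.coe_zero, Pi.zero_apply, Finsupp.coe_add, Pi.add_apply, hE v]
    linarith
  have h2 := lspace_degree_nonneg hnn
  rw [map_add, hE0, zero_add] at h2
  exact absurd h2 (not_le.mpr hD)

/-- `L(D)/L(D₀)` is finite-dimensional for `D₀ ≤ D`. -/
theorem lspace_relFinite_riemannRochSpace [Nonempty (Place K F)]
    (hres : ∀ v : Place K F, Module.Finite K v.ResidueField) {D D' : Divisor K F}
    (h : D ≤ D') : RelFinite (riemannRochSpace D) (riemannRochSpace D') := by
  rw [← relFinite_map diag diag_injective, map_diag_riemannRochSpace, map_diag_riemannRochSpace]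
  exact relFinite_inf_inf _ (repartitionsOf_mono h) (relFinite_repartitionsOf hres h)

theorem lspace_deg_pos_of_finite (v : Place K F) (h : Module.Finite K v.ResidueField) : 0 < v.deg := by
  have := h
  exact Module.finrank_pos

theorem finite_riemannRochSpace [HasPrincipalDivisors K F] [Nonempty (Place K F)]
    (hres : ∀ v : Place K F, Module.Finite K v.ResidueField) (D : Divisor K F) :
    Module.Finite K (riemannRochSpace D) := by
  classical
  obtain ⟨P⟩ := ‹Nonempty (Place K F)›
  have hP : 0 < (P.deg : ℤ) := by exact_mod_cast lspace_deg_pos_of_finite P (hres P)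
  -- a divisor below `D` of negative degree
  set n : ℤ := |D.degree| + 1 with hn
  set D₀ : Divisor K F := D - Finsupp.single P n with hD₀
  have hnpos : 0 < n := by positivity
  have hle : D₀ ≤ D := by
    rw [hD₀, Finsupp.le_def]
    intro v
    rw [Finsupp.sub_apply, Finsupp.single_apply]
    split_ifs <;> linarith
  have hdeg : D₀.degree < 0 := by
    rw [hD₀, map_sub, Divisor.degree_single]
    have h1 : n ≤ n * (P.deg : ℤ) := by nlinarith
    have h2 : D.degree ≤ |D.degree| := le_abs_self _
    linarith
  have hbot : riemannRochSpace D₀ = ⊥ := riemannRochSpace_eq_bot hdeg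
  have hfin : Module.Finite K (riemannRochSpace D₀) := by
    rw [hbot]; infer_instance
  exact finite_of_relFinite (riemannRochSpace_mono hle) hfin (lspace_relFinite_riemannRochSpace hres hle)

/-- `l(D') - l(D) ≤ deg D' - deg D` for `D ≤ D'`. -/
theorem ell_sub_le [HasPrincipalDivisors K F] [Nonempty (Place K F)]
    (hres : ∀ v : Place K F, Module.Finite K v.ResidueField) {D D' : Divisor K F}
    (h : D ≤ D') : (ell D' : ℤ) - ell D ≤ D'.degree - D.degree := by
  have := finite_riemannRochSpace hres D'
  have h1 : relfinrank (riemannRochSpace D) (riemannRochSpace D') + ell D = ell D' :=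
    relfinrank_add_finrank (riemannRochSpace_mono h)
  have h2 : relfinrank (riemannRochSpace D) (riemannRochSpace D') =
      relfinrank (repartitionsOf D ⊓ principalRepartitions K F)
        (repartitionsOf D' ⊓ principalRepartitions K F) := by
    rw [← relfinrank_map diag diag_injective, map_diag_riemannRochSpace,
      map_diag_riemannRochSpace]
  have h3 := relfinrank_modular (principalRepartitions K F) (repartitionsOf_mono h)
    (relFinite_repartitionsOf hres h)
  have h4 := relfinrank_repartitionsOf hres h
  have h5 : (relfinrank (riemannRochSpace D) (riemannRochSpace D') : ℤ) ≤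
      D'.degree - D.degree := by
    rw [← h4, h2, h3]
    push_cast
    linarith [Int.natCast_nonneg (relfinrank (repartitionsOf D ⊔ principalRepartitions K F)
      (repartitionsOf D' ⊔ principalRepartitions K F))]
  have h6 : (ell D' : ℤ) = relfinrank (riemannRochSpace D) (riemannRochSpace D') + ell D := by
    exact_mod_cast h1.symm
  linarith

/-- Multiplication by `z` maps `L(D + (z))` into `L(D)`. -/
theorem lspace_mul_mem_riemannRochSpace {D E : Divisor K F} {z : F} (hz : z ≠ 0)
    (hE : IsDivisorOf z E) {f : F} (hf : f ∈ riemannRochSpace (D + E)) :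
    f * z ∈ riemannRochSpace D := by
  rw [mem_riemannRochSpace_iff] at hf ⊢
  intro v
  rcases hf v with h0 | h1
  · left; rw [h0, zero_mul]
  · by_cases hf0 : f = 0
    · left; rw [hf0, zero_mul]
    · right
      rw [v.ord_mul hf0 hz, ← hE v]
      simp only [Finsupp.coe_add, Pi.add_apply] at h1
      linarith

/-- `l` is invariant under adding a principal divisor (multiplication by `z`). -/
theorem ell_add_principal (D E : Divisor K F) {z : F} (hz : z ≠ 0) (hE : IsDivisorOf z E) :
    ell (D + E) = ell D := by
  have hE' : IsDivisorOf z⁻¹ (-E) := fun v => by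
    rw [Finsupp.neg_apply, hE v, v.ord_inv]
  let e : riemannRochSpace (D + E) ≃ₗ[K] riemannRochSpace D :=
    { toFun := fun f => ⟨(f : F) * z, lspace_mul_mem_riemannRochSpace hz hE f.2⟩
      map_add' := fun f g => Subtype.ext (by simp [add_mul])
      map_smul' := fun c f => Subtype.ext (by simp)
      invFun := fun f => ⟨(f : F) * z⁻¹, by
        have hf : (f : F) ∈ riemannRochSpace ((D + E) + -E) := by
          rw [add_neg_cancel_right]; exact f.2
        exact lspace_mul_mem_riemannRochSpace (inv_ne_zero hz) hE' hf⟩
      left_inv := fun f => Subtype.ext (by simp [mul_assoc, mul_inv_cancel₀ hz])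
      right_inv := fun f => Subtype.ext (by simp [mul_assoc, inv_mul_cancel₀ hz]) }
  exact e.finrank_eq

/-- The constants lie in `L(0)`. -/
theorem algebraMap_mem_riemannRochSpace_zero (c : K) :
    algebraMap K F c ∈ riemannRochSpace (0 : Divisor K F) := by
  intro v
  simpa using v.adicValuation_algebraMap_le_one c

end Fermat.Agent.S27.A
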