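/-
S27 Package A, leaf INEQUALITY (A5): Riemann's inequality `deg D - l(D) ≤ γ`.
Statements FROZEN (skeleton of helper8976); proofs by helper242.
Proof.  Let `x`, `B = (x)_∞`, `n = [F : K(x)] = deg B` be as in `Hyp.supply`.
(1) a `K(x)`-basis `u_1..u_n` of `F` integral over `K[x]` (`exists_integral_multiple`);
(2) integral elements have poles only at poles of `x`, hence `u_i ∈ L(m₀ B)` for some `m₀`;
(3) the `x^j u_i`, `j ≤ N`, are `K`-independent elements of `L((N + m₀) B)`, so
    `l((N+m₀)B) ≥ n (N+1)` and `deg - l ≤ n (m₀ - 1)` on these divisors;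
(4) every `D` is `≤ l B + div z` for suitable `z`, `l` (`exists_shift`: at a place `v` which is not
    a pole of `x` the residue of `x` is algebraic over `K`, so some `p(x)`, `p ∈ K[X]` nonzero,
    vanishes at `v`, and `p(x)` has no poles outside the poles of `x`);
(5) `deg - l` is monotone (`ell_sub_le`) and invariant under principal shifts (`ell_add_principal`).
-/
import Fermat.Agent.S27.A.LSpace

set_option autoImplicit false

open AlgebraicCurve IntermediateField

namespace Fermat.Agent.S27.A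

variable {K F : Type*} [Field K] [Field F] [Algebra K F]

namespace H242

theorem mem_of_ord_nonneg (v : Place K F) {f : F} (h : 0 ≤ v.ord f) :
    f ∈ v.toValuationSubring := by
  rcases eq_or_ne f 0 with rfl | hf
  · exact zero_mem _
  obtain ⟨π, hπ⟩ := IsDiscreteValuationRing.exists_irreducible v.toValuationSubring
  obtain ⟨u, hu⟩ := v.exists_unit_mul_zpow hf hπ
  rw [hu]
  obtain ⟨n, hn⟩ := Int.eq_ofNat_of_zero_le h
  rw [hn, zpow_natCast]
  exact mul_mem (u : v.toValuationSubring).2 (pow_mem π.2 n)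

theorem ord_nonneg_of_mem (v : Place K F) {f : F} (h : f ∈ v.toValuationSubring) :
    0 ≤ v.ord f := by
  rcases eq_or_ne f 0 with rfl | hf
  · simp
  have := (v.adicValuation_le_one_iff (f := f)).mp (v.adicValuation_le_one_of_mem h)
  tauto

theorem adjoin_le_valuationSubring (v : Place K F) {x : F} (hx : x ∈ v.toValuationSubring)
    {a : F} (ha : a ∈ Algebra.adjoin K {x}) : a ∈ v.toValuationSubring := by
  induction ha using Algebra.adjoin_induction with
  | mem y hy => rw [Set.mem_singleton_iff] at hy; rw [hy]; exact hx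
  | algebraMap r => exact v.algebraMap_mem' r
  | add a b _ _ ha hb => exact add_mem ha hb
  | mul a b _ _ ha hb => exact mul_mem ha hb

theorem mem_of_isIntegral (v : Place K F) {x u : F} (hx : x ∈ v.toValuationSubring)
    (hu : IsIntegral (Algebra.adjoin K {x}) u) : u ∈ v.toValuationSubring := by
  obtain ⟨p, hp, hpu⟩ := hu
  let φ : Algebra.adjoin K {x} →+* v.toValuationSubring :=
    { toFun := fun a => ⟨a.1, adjoin_le_valuationSubring v hx a.2⟩
      map_one' := rfl
      map_mul' := fun _ _ => rfl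
      map_zero' := rfl
      map_add' := fun _ _ => rfl }
  have hint : IsIntegral v.toValuationSubring u := by
    refine ⟨p.map φ, hp.map φ, ?_⟩
    rw [Polynomial.eval₂_map]
    exact hpu
  obtain ⟨y, hy⟩ := (IsIntegrallyClosed.isIntegral_iff (R := v.toValuationSubring) (K := F)).mp hint
  rw [← hy]
  exact y.2

end H242

theorem exists_isDivisorOf [HasPrincipalDivisors K F] (z : F) :
    ∃ E : Divisor K F, IsDivisorOf z E := by
  rcases eq_or_ne z 0 with rfl | hz
  · exact ⟨0, fun v => by simp⟩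
  · obtain ⟨D, hD, -⟩ := HasPrincipalDivisors.exists_divisor (K := K) z hz
    exact ⟨D, hD⟩

theorem degree_eq_zero_of_isDivisorOf [HasPrincipalDivisors K F] {z : F} (hz : z ≠ 0)
    {E : Divisor K F} (hE : IsDivisorOf z E) : E.degree = 0 := by
  obtain ⟨D, hD, hdeg⟩ := HasPrincipalDivisors.exists_divisor (K := K) z hz
  have : E = D := Finsupp.ext fun v => by rw [hE v, hD v]
  rw [this, hdeg]

theorem nonempty_place (H : Hyp K F) : Nonempty (Place K F) := by
  obtain ⟨x, -, hfd, B, -, hdeg⟩ := H.supply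
  by_contra hne
  rw [not_nonempty_iff] at hne
  have hB : B = 0 := Finsupp.ext fun v => (hne.false v).elim
  rw [hB, map_zero] at hdeg
  have : 0 < Module.finrank K⟮x⟯ F := Module.finrank_pos
  omega

/-- Elements integral over `K[x]` have no poles outside the poles of `x`. -/
theorem ord_nonneg_of_isIntegral (v : Place K F) {x u : F} (hx : 0 ≤ v.ord x)
    (hu : IsIntegral (Algebra.adjoin K {x}) u) : 0 ≤ v.ord u :=
  H242.ord_nonneg_of_mem v (H242.mem_of_isIntegral v (H242.mem_of_ord_nonneg v hx) hu)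

open scoped IntermediateField.algebraAdjoinAdjoin in
theorem exists_integral_basis (x : F) [FiniteDimensional K⟮x⟯ F] :
    ∃ u : Fin (Module.finrank K⟮x⟯ F) → F, LinearIndependent K⟮x⟯ u ∧
      ∀ i, IsIntegral (Algebra.adjoin K {x}) (u i) := by
  classical
  let b := Module.finBasis K⟮x⟯ F
  have halg : ∀ i, IsAlgebraic (Algebra.adjoin K {x}) (b i) := by
    intro i
    have h1 : IsAlgebraic K⟮x⟯ (b i) := Algebra.IsAlgebraic.isAlgebraic (b i)
    exact (IsFractionRing.isAlgebraic_iff (Algebra.adjoin K {x}) K⟮x⟯ F).mpr h1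
  have hmul : ∀ i, ∃ y : Algebra.adjoin K {x}, y ≠ 0 ∧
      IsIntegral (Algebra.adjoin K {x}) (y • b i) := fun i => (halg i).exists_integral_multiple
  choose y hy0 hyint using hmul
  have hunit : ∀ i, IsUnit (algebraMap (Algebra.adjoin K {x}) K⟮x⟯ (y i)) := by
    intro i
    rw [isUnit_iff_ne_zero]
    intro h
    apply hy0 i
    exact (FaithfulSMul.algebraMap_injective (Algebra.adjoin K {x}) K⟮x⟯) (by rw [h, map_zero])
  refine ⟨fun i => y i • b i, ?_, hyint⟩
  have h := b.linearIndependent.units_smul (fun i => (hunit i).unit)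
  convert h using 1
  ext i
  simp only [Pi.smul_apply', Units.smul_def, IsUnit.unit_spec]
  rw [algebraMap_smul]

namespace H242

theorem linearIndependent_gen_pow (x : F) (hx : Transcendental K x) (N : ℕ) :
    LinearIndependent K (fun j : Fin (N + 1) => (AdjoinSimple.gen K x) ^ (j : ℕ)) := by
  classical
  rw [Fintype.linearIndependent_iff]
  intro g hg i
  have h1 : (Polynomial.aeval x) (∑ j : Fin (N + 1), Polynomial.monomial (j : ℕ) (g j)) = 0 := by
    have h2 := congrArg (fun z : K⟮x⟯ => (z : F)) hg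
    simp only [AddSubmonoidClass.coe_finsetSum, ZeroMemClass.coe_zero] at h2
    rw [map_sum]
    rw [← h2]
    refine Finset.sum_congr rfl fun j _ => ?_
    rw [Polynomial.aeval_monomial]
    simp [Algebra.smul_def]
  have h3 := (transcendental_iff.mp hx) _ h1
  have h4 := congrArg (fun p => Polynomial.coeff p (i : ℕ)) h3
  simp only [Polynomial.finsetSum_coeff, Polynomial.coeff_monomial, Polynomial.coeff_zero] at h4
  rw [Finset.sum_eq_single i] at h4
  · simpa using h4
  · intro j _ hji
    rw [if_neg]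
    exact fun h => hji (Fin.ext h)
  · intro h
    exact absurd (Finset.mem_univ i) h

end H242

theorem linearIndependent_pow_mul (x : F) (hx : Transcendental K x) {n : ℕ} (u : Fin n → F)
    (hu : LinearIndependent K⟮x⟯ u) (N : ℕ) :
    LinearIndependent K (fun p : Fin (N + 1) × Fin n => x ^ (p.1 : ℕ) * u p.2) := by
  have h := linearIndependent_smul (H242.linearIndependent_gen_pow x hx N) hu
  convert h using 1
  funext p
  rfl

namespace H242

theorem ord_pow (v : Place K F) (f : F) (n : ℕ) : v.ord (f ^ n) = n * v.ord f := by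
  have := v.ord_zpow f n
  simpa using this

theorem poleDivisor_nonneg {x : F} {B : Divisor K F} (hB : IsPoleDivisor x B) (v : Place K F) :
    0 ≤ B v := by
  rw [hB v]; exact le_max_left _ _

theorem nsmul_poleDivisor_mono {x : F} {B : Divisor K F} (hB : IsPoleDivisor x B) {m m' : ℕ}
    (h : m ≤ m') : m • B ≤ m' • B := by
  rw [Finsupp.le_def]
  intro v
  simp only [Finsupp.smul_apply, nsmul_eq_mul]
  have h1 := poleDivisor_nonneg hB v
  have h2 : (m : ℤ) ≤ m' := by exact_mod_cast h
  exact mul_le_mul_of_nonneg_right h2 h1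

end H242

theorem exists_nsmul_mem {x : F} {B : Divisor K F} (hB : IsPoleDivisor x B) {u : F}
    (hu : IsIntegral (Algebra.adjoin K {x}) u) : ∃ m : ℕ, u ∈ riemannRochSpace (m • B) := by
  classical
  refine ⟨∑ w ∈ B.support, (-(w.ord u)).toNat, ?_⟩
  rw [mem_riemannRochSpace_iff]
  intro v
  right
  simp only [Finsupp.smul_apply, nsmul_eq_mul]
  by_cases hx : 0 ≤ v.ord x
  · have h1 := ord_nonneg_of_isIntegral v hx hu
    have h2 : B v = 0 := by rw [hB v]; exact max_eq_left (by omega)
    rw [h2]; simpa using h1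
  · have h2 : B v = -(v.ord x) := by rw [hB v]; exact max_eq_right (by omega)
    have hv : v ∈ B.support := by
      rw [Finsupp.mem_support_iff, h2]; omega
    have h3 : (-(v.ord u)).toNat ≤ ∑ w ∈ B.support, (-(w.ord u)).toNat :=
      Finset.single_le_sum (f := fun w : Place K F => (-(w.ord u)).toNat)
        (fun _ _ => Nat.zero_le _) hv
    have h4 : (1 : ℤ) ≤ B v := by rw [h2]; omega
    have h5 : ((-(v.ord u)).toNat : ℤ) ≤ ((∑ w ∈ B.support, (-(w.ord u)).toNat : ℕ) : ℤ) := by
      exact_mod_cast h3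
    have h6 : -(v.ord u) ≤ ((-(v.ord u)).toNat : ℤ) := Int.self_le_toNat _
    have h7 : ((∑ w ∈ B.support, (-(w.ord u)).toNat : ℕ) : ℤ) * 1
        ≤ ((∑ w ∈ B.support, (-(w.ord u)).toNat : ℕ) : ℤ) * B v :=
      mul_le_mul_of_nonneg_left h4 (by positivity)
    push_cast at h5 h7 ⊢
    linarith

theorem pow_mul_mem {x : F} {B : Divisor K F} (hB : IsPoleDivisor x B) (j m : ℕ) {u : F}
    (hu : u ∈ riemannRochSpace (m • B)) : x ^ j * u ∈ riemannRochSpace ((j + m) • B) := by
  rw [mem_riemannRochSpace_iff] at hu ⊢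
  intro v
  by_cases h0 : x ^ j * u = 0
  · exact Or.inl h0
  right
  have hu0 : u ≠ 0 := right_ne_zero_of_mul h0
  have hx0 : x ^ j ≠ 0 := left_ne_zero_of_mul h0
  rw [v.ord_mul hx0 hu0, H242.ord_pow]
  have h1 := (hu v).resolve_left hu0
  simp only [Finsupp.smul_apply, nsmul_eq_mul] at h1 ⊢
  have h2 : -(v.ord x) ≤ B v := by rw [hB v]; exact le_max_right _ _
  have h3 : (j : ℤ) * (-(v.ord x)) ≤ (j : ℤ) * B v :=
    mul_le_mul_of_nonneg_left h2 (by positivity)
  push_cast
  linarith

theorem ell_nsmul_ge (x : F) (hx : Transcendental K x) [FiniteDimensional K⟮x⟯ F]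
    {B : Divisor K F} (hB : IsPoleDivisor x B)
    (hfin : ∀ D : Divisor K F, Module.Finite K (riemannRochSpace D)) :
    ∃ m₀ : ℕ, ∀ N : ℕ, Module.finrank K⟮x⟯ F * (N + 1) ≤ ell ((N + m₀) • B) := by
  classical
  obtain ⟨u, hu, hint⟩ := exists_integral_basis (K := K) x
  choose m hm using fun i => exists_nsmul_mem hB (hint i)
  refine ⟨∑ i, m i, fun N => ?_⟩
  have hmem : ∀ i, u i ∈ riemannRochSpace ((∑ i, m i) • B) := fun i =>
    riemannRochSpace_mono (H242.nsmul_poleDivisor_mono hB
      (Finset.single_le_sum (fun _ _ => Nat.zero_le _) (Finset.mem_univ i))) (hm i)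
  have hmem2 : ∀ p : Fin (N + 1) × Fin (Module.finrank K⟮x⟯ F),
      x ^ (p.1 : ℕ) * u p.2 ∈ riemannRochSpace ((N + ∑ i, m i) • B) := fun p =>
    riemannRochSpace_mono (H242.nsmul_poleDivisor_mono hB (by have := p.1.2; omega))
      (pow_mul_mem hB p.1 _ (hmem p.2))
  have hli := linearIndependent_pow_mul x hx u hu N
  have hli2 : LinearIndependent K
      (fun p : Fin (N + 1) × Fin (Module.finrank K⟮x⟯ F) =>
        (⟨x ^ (p.1 : ℕ) * u p.2, hmem2 p⟩ : riemannRochSpace ((N + ∑ i, m i) • B))) :=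
    LinearIndependent.of_comp (riemannRochSpace ((N + ∑ i, m i) • B)).subtype hli
  have := hfin ((N + ∑ i, m i) • B)
  have hcard := hli2.fintype_card_le_finrank
  simp only [Fintype.card_prod, Fintype.card_fin] at hcard
  unfold ell
  rw [mul_comm]
  exact hcard

namespace H242

theorem one_le_ord_of_mem_maximalIdeal (v : Place K F) {a : v.toValuationSubring}
    (ha : a ∈ IsLocalRing.maximalIdeal v.toValuationSubring) (ha0 : a ≠ 0) :
    1 ≤ v.ord (a : F) := by
  obtain ⟨π, hπ⟩ := IsDiscreteValuationRing.exists_irreducible v.toValuationSubring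
  rw [hπ.maximalIdeal_eq, Ideal.mem_span_singleton'] at ha
  obtain ⟨b, rfl⟩ := ha
  have hb0 : b ≠ 0 := left_ne_zero_of_mul ha0
  have hπ0 : π ≠ 0 := right_ne_zero_of_mul ha0
  have hbF : (b : F) ≠ 0 := by simpa using hb0
  have hπF : (π : F) ≠ 0 := by simpa using hπ0
  have : ((b * π : v.toValuationSubring) : F) = (b : F) * (π : F) := rfl
  rw [this, v.ord_mul hbF hπF, v.ord_coe_irreducible hπ]
  have := ord_nonneg_of_mem v b.2
  omega

/-- At a place which is not a pole of `x`, some nonzero polynomial in `x` vanishes. -/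
theorem exists_poly_ord_pos (hres : ∀ v : Place K F, Module.Finite K v.ResidueField)
    (v : Place K F) {x : F} (hx : Transcendental K x) (hv : 0 ≤ v.ord x) :
    ∃ p : Polynomial K, p ≠ 0 ∧ 1 ≤ v.ord (Polynomial.aeval x p) := by
  have hxm : x ∈ v.toValuationSubring := mem_of_ord_nonneg v hv
  set y : v.toValuationSubring := ⟨x, hxm⟩ with hy
  have := hres v
  have halg : IsAlgebraic K (IsLocalRing.residue v.toValuationSubring y) :=
    Algebra.IsAlgebraic.isAlgebraic _
  obtain ⟨p, hp0, hp⟩ := halg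
  refine ⟨p, hp0, ?_⟩
  have h1 : IsLocalRing.residue v.toValuationSubring (Polynomial.aeval y p) = 0 := by
    have := Polynomial.aeval_algebraMap_apply (IsLocalRing.ResidueField v.toValuationSubring) y p
    rw [IsLocalRing.ResidueField.algebraMap_eq] at this
    rw [← this]; exact hp
  have h2 : Polynomial.aeval y p ∈ IsLocalRing.maximalIdeal v.toValuationSubring :=
    (IsLocalRing.residue_eq_zero_iff _).mp h1
  have h3 : ((Polynomial.aeval y p : v.toValuationSubring) : F) = Polynomial.aeval x p := by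
    have := Polynomial.aeval_algebraMap_apply F y p
    exact this.symm
  have h4 : Polynomial.aeval x p ≠ 0 := fun h => hp0 ((transcendental_iff.mp hx) p h)
  have h5 : Polynomial.aeval y p ≠ 0 := by
    intro h
    apply h4
    rw [← h3, h]; rfl
  rw [← h3]
  exact one_le_ord_of_mem_maximalIdeal v h2 h5

theorem ord_nonneg_of_mem_adjoin (v : Place K F) {x a : F} (hv : 0 ≤ v.ord x)
    (ha : a ∈ Algebra.adjoin K {x}) : 0 ≤ v.ord a :=
  ord_nonneg_of_mem v (adjoin_le_valuationSubring v (mem_of_ord_nonneg v hv) ha)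

end H242

theorem exists_shift [HasPrincipalDivisors K F]
    (hres : ∀ v : Place K F, Module.Finite K v.ResidueField) (x : F) (hx : Transcendental K x)
    {B : Divisor K F} (hB : IsPoleDivisor x B) (D : Divisor K F) :
    ∃ (z : F) (E : Divisor K F) (l : ℕ), z ≠ 0 ∧ IsDivisorOf z E ∧ D ≤ l • B + E := by
  classical
  -- the polynomials
  have hex : ∀ v : Place K F, ∃ p : Polynomial K, p ≠ 0 ∧
      (0 ≤ v.ord x → 1 ≤ v.ord (Polynomial.aeval x p)) := by
    intro v
    by_cases hv : 0 ≤ v.ord x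
    · obtain ⟨p, hp0, hp⟩ := H242.exists_poly_ord_pos hres v hx hv
      exact ⟨p, hp0, fun _ => hp⟩
    · exact ⟨1, one_ne_zero, fun h => absurd h hv⟩
  choose p hp0 hp using hex
  set f : Place K F → F := fun v => (Polynomial.aeval x (p v)) ^ (D v).toNat with hf
  have hf0 : ∀ v, f v ≠ 0 := fun v =>
    pow_ne_zero _ (fun h => hp0 v ((transcendental_iff.mp hx) _ h))
  have hfmem : ∀ v, f v ∈ Algebra.adjoin K {x} := fun v =>
    pow_mem (Polynomial.aeval_mem_adjoin_singleton K x) _
  set z : F := ∏ v ∈ D.support, f v with hz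
  have hz0 : z ≠ 0 := Finset.prod_ne_zero_iff.mpr fun v _ => hf0 v
  obtain ⟨E, hE⟩ := exists_isDivisorOf (K := K) z
  refine ⟨z, E, ∑ w ∈ B.support, (D w - E w).toNat, hz0, hE, ?_⟩
  rw [Finsupp.le_def]
  intro w
  simp only [Finsupp.add_apply, Finsupp.smul_apply, nsmul_eq_mul]
  by_cases hw : 0 ≤ w.ord x
  · have hBw : B w = 0 := by rw [hB w]; exact max_eq_left (by omega)
    rw [hBw, mul_zero, zero_add, hE w]
    by_cases hDw : w ∈ D.support
    · have hprod : f w * ∏ v ∈ D.support.erase w, f v = z := Finset.mul_prod_erase _ _ hDw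
      have hz' : (∏ v ∈ D.support.erase w, f v) ≠ 0 :=
        Finset.prod_ne_zero_iff.mpr fun v _ => hf0 v
      have hz'mem : (∏ v ∈ D.support.erase w, f v) ∈ Algebra.adjoin K {x} :=
        Subalgebra.prod_mem _ fun v _ => hfmem v
      rw [← hprod, w.ord_mul (hf0 w) hz', hf, H242.ord_pow]
      have h1 := hp w hw
      have h2 := H242.ord_nonneg_of_mem_adjoin w hw hz'mem
      have h3 : D w ≤ ((D w).toNat : ℤ) := Int.self_le_toNat _
      have h4 : ((D w).toNat : ℤ) * 1 ≤ ((D w).toNat : ℤ) * w.ord (Polynomial.aeval x (p w)) :=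
        mul_le_mul_of_nonneg_left h1 (by positivity)
      linarith
    · have hD0 : D w = 0 := by simpa [Finsupp.mem_support_iff] using hDw
      rw [hD0]
      exact H242.ord_nonneg_of_mem_adjoin w hw (Subalgebra.prod_mem _ fun v _ => hfmem v)
  · have hBw : B w = -(w.ord x) := by rw [hB w]; exact max_eq_right (by omega)
    have hwB : w ∈ B.support := by
      rw [Finsupp.mem_support_iff, hBw]; omega
    have h3 : (D w - E w).toNat ≤ ∑ w ∈ B.support, (D w - E w).toNat :=
      Finset.single_le_sum (f := fun w : Place K F => (D w - E w).toNat)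
        (fun _ _ => Nat.zero_le _) hwB
    have h4 : (1 : ℤ) ≤ B w := by rw [hBw]; omega
    have h5 : ((D w - E w).toNat : ℤ) ≤ ((∑ w ∈ B.support, (D w - E w).toNat : ℕ) : ℤ) := by
      exact_mod_cast h3
    have h6 : D w - E w ≤ ((D w - E w).toNat : ℤ) := Int.self_le_toNat _
    have h7 : ((∑ w ∈ B.support, (D w - E w).toNat : ℕ) : ℤ) * 1
        ≤ ((∑ w ∈ B.support, (D w - E w).toNat : ℕ) : ℤ) * B w :=
      mul_le_mul_of_nonneg_left h4 (by positivity)
    push_cast at h5 h7 ⊢
    linarith

/-- Riemann's inequality. -/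
theorem riemann_inequality (H : Hyp K F) :
    ∃ γ : ℤ, ∀ D : Divisor K F, D.degree - ell D ≤ γ := by
  classical
  have := H.principal
  have := nonempty_place H
  obtain ⟨x, hx, hfd, B, hB, hdeg⟩ := H.supply
  have hfin : ∀ D : Divisor K F, Module.Finite K (riemannRochSpace D) :=
    fun D => finite_riemannRochSpace H.finiteResidue D
  obtain ⟨m₀, hm₀⟩ := ell_nsmul_ge x hx hB hfin
  refine ⟨(Module.finrank K⟮x⟯ F : ℤ) * m₀, fun D => ?_⟩
  obtain ⟨z, E, l, hz0, hE, hle⟩ := exists_shift H.finiteResidue x hx hB D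
  have hle2 : D ≤ (l + m₀) • B + E := by
    refine hle.trans ?_
    exact add_le_add_left (H242.nsmul_poleDivisor_mono hB (Nat.le_add_right l m₀)) E
  have h1 := ell_sub_le H.finiteResidue hle2
  have h2 : ell ((l + m₀) • B + E) = ell ((l + m₀) • B) := ell_add_principal _ _ hz0 hE
  have h3 : ((l + m₀) • B + E).degree = ((l + m₀ : ℕ) : ℤ) * Module.finrank K⟮x⟯ F := by
    rw [map_add, degree_eq_zero_of_isDivisorOf hz0 hE, add_zero, map_nsmul, hdeg, nsmul_eq_mul]
  have h4 := hm₀ l
  have h5 : ((Module.finrank K⟮x⟯ F * (l + 1) : ℕ) : ℤ) ≤ (ell ((l + m₀) • B) : ℤ) := by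
    exact_mod_cast h4
  rw [h2, h3] at h1
  push_cast at h1 h5 ⊢
  nlinarith

end Fermat.Agent.S27.A
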