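/-
S27 Package A, leaf POLES (A3, first half): repartitions have finitely many poles.
Statements FROZEN.  Proof: `repartitions K F` is `Algebra.adjoin F S`, `S` = functions with
finitely many poles; use `Algebra.adjoin_induction`; constants have finitely many poles by
`HasPrincipalDivisors` (the divisor of `f` is a `Finsupp`).
-/
import Fermat.Agent.S27.A.Defs

set_option autoImplicit false

open AlgebraicCurve

namespace Fermat.Agent.S27.A

variable {K F : Type*} [Field K] [Field F] [Algebra K F]

theorem finite_ord_ne_zero [HasPrincipalDivisors K F] (f : F) :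
    {v : Place K F | v.ord f ≠ 0}.Finite := by
  rcases eq_or_ne f 0 with rfl | hf
  · simp
  · obtain ⟨D, hD, -⟩ := HasPrincipalDivisors.exists_divisor (K := K) f hf
    refine D.support.finite_toSet.subset fun v hv => ?_
    rw [Finset.mem_coe, Finsupp.mem_support_iff, hD v]
    exact hv

/-- Auxiliary form of `finite_poles`, in terms of the valuation. -/
theorem finite_not_adicValuation_le_one [HasPrincipalDivisors K F] {α : Place K F → F}
    (hα : α ∈ repartitions K F) : {v : Place K F | ¬v.adicValuation (α v) ≤ 1}.Finite := by
  unfold repartitions at hα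
  induction hα using Algebra.adjoin_induction with
  | mem x hx => exact hx
  | algebraMap f =>
    refine (finite_ord_ne_zero (K := K) f).subset fun v hv => ?_
    have h1 : v.ord f < 0 := v.not_adicValuation_le_one_iff.mp hv
    exact h1.ne
  | add x y _ _ hx hy =>
    refine (hx.union hy).subset fun v hv => ?_
    by_contra hcon
    rw [Set.mem_union, not_or] at hcon
    have h1 : v.adicValuation (x v) ≤ 1 := not_not.mp hcon.1
    have h2 : v.adicValuation (y v) ≤ 1 := not_not.mp hcon.2
    exact hv ((Valuation.map_add _ _ _).trans (max_le h1 h2))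
  | mul x y _ _ hx hy =>
    refine (hx.union hy).subset fun v hv => ?_
    by_contra hcon
    rw [Set.mem_union, not_or] at hcon
    have h1 : v.adicValuation (x v) ≤ 1 := not_not.mp hcon.1
    have h2 : v.adicValuation (y v) ≤ 1 := not_not.mp hcon.2
    apply hv
    show v.adicValuation (x v * y v) ≤ 1
    rw [map_mul]
    exact mul_le_one' h1 h2

theorem finite_poles [HasPrincipalDivisors K F] {α : Place K F → F}
    (hα : α ∈ repartitions K F) : {v : Place K F | v.ord (α v) < 0}.Finite := by
  have h := finite_not_adicValuation_le_one hα
  rwa [show {v : Place K F | ¬v.adicValuation (α v) ≤ 1} = {v : Place K F | v.ord (α v) < 0} from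
    Set.ext fun v => v.not_adicValuation_le_one_iff] at h

/-- Every repartition lies in some `A(D)`, and `D` can be taken above any given divisor. -/
theorem exists_mem_repartitionsOf [HasPrincipalDivisors K F] (α : ↥(repartitions K F))
    (D₀ : Divisor K F) : ∃ D : Divisor K F, D₀ ≤ D ∧ α ∈ repartitionsOf D := by
  classical
  have hfin := finite_poles α.2
  let E : Divisor K F := Finsupp.onFinset hfin.toFinset
    (fun v => max 0 (-(v.ord ((α : Place K F → F) v)))) (by
      intro v hv
      rw [Set.Finite.mem_toFinset]
      show v.ord ((α : Place K F → F) v) < 0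
      by_contra hcon
      apply hv
      rw [max_eq_left]
      linarith [not_lt.mp hcon])
  refine ⟨D₀ ⊔ E, le_sup_left, ?_⟩
  rw [mem_repartitionsOf_iff]
  intro v
  right
  have h1 : E v ≤ (D₀ ⊔ E) v := Finsupp.le_def.mp le_sup_right v
  have h2 : E v = max 0 (-(v.ord ((α : Place K F → F) v))) := rfl
  have h3 : -(v.ord ((α : Place K F → F) v)) ≤ E v := by
    rw [h2]
    exact le_max_right _ _
  linarith

end Fermat.Agent.S27.A
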