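/-
S27 Package A, leaf RIEMANN (A4 + A6): Riemann's theorem
`l(D) - i(D) = deg D + l(0) - g`, `g = genusFF K F = i(0)`, all spaces finite-dimensional.
Statements FROZEN (skeleton helper8976); proofs helper5726.
Proof.  `δ(D) := deg D - l(D)` is monotone and bounded above; let `D₀` be a maximiser.
`relfinrank_sup`: for `D ≤ D'`, `dim (A(D')+F)/(A(D)+F) = δ(D') - δ(D)` (`relfinrank_modular`
with `W = principalRepartitions`, `map_diag_riemannRochSpace`, `relfinrank_repartitionsOf`).
`sup_eq_top`: for `D ≥ D₀`, `A(D) + F = ⊤` (every repartition lies in some `A(D')`, `D' ≥ D`,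
and `δ(D') = δ(D)`).  Then `H¹(D) = (A(D ⊔ D₀)+F)/(A(D)+F)` has dimension `δ(D₀) - δ(D)`.
-/
import Fermat.Agent.S27.A.Inequality
import Fermat.Agent.S27.A.Poles

set_option autoImplicit false

open AlgebraicCurve

namespace Fermat.Agent.S27.A

variable {K F : Type*} [Field K] [Field F] [Algebra K F]

theorem genusFF_eq_spec_zero : genusFF K F = spec (0 : Divisor K F) := rfl

theorem finite_ell (H : Hyp K F) (D : Divisor K F) : Module.Finite K (riemannRochSpace D) := by
  have := H.principal
  have := nonempty_place H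
  exact finite_riemannRochSpace H.finiteResidue D

theorem one_le_ell_zero (H : Hyp K F) : 1 ≤ ell (0 : Divisor K F) := by
  have := finite_ell H (0 : Divisor K F)
  have h1 : (1 : F) ∈ riemannRochSpace (0 : Divisor K F) := by
    simpa using algebraMap_mem_riemannRochSpace_zero (K := K) (F := F) 1
  have h2 : 0 < Module.finrank K (riemannRochSpace (0 : Divisor K F)) := by
    rw [Module.finrank_pos_iff_exists_ne_zero]
    exact ⟨⟨1, h1⟩, fun h => one_ne_zero (congrArg Subtype.val h)⟩
  exact h2

theorem defect_mono (H : Hyp K F) {D D' : Divisor K F} (h : D ≤ D') :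
    D.degree - ell D ≤ D'.degree - ell D' := by
  have := H.principal
  have := nonempty_place H
  have h1 := ell_sub_le H.finiteResidue h
  linarith

theorem relfinrank_sup (H : Hyp K F) {D D' : Divisor K F} (h : D ≤ D') :
    RelFinite (repartitionsOf D ⊔ principalRepartitions K F)
        (repartitionsOf D' ⊔ principalRepartitions K F) ∧
      (relfinrank (repartitionsOf D ⊔ principalRepartitions K F)
          (repartitionsOf D' ⊔ principalRepartitions K F) : ℤ)
        = (D'.degree - ell D') - (D.degree - ell D) := by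
  have := H.principal
  have := nonempty_place H
  have hle : repartitionsOf D ≤ repartitionsOf D' := repartitionsOf_mono h
  have hf := relFinite_repartitionsOf H.finiteResidue h
  have hr := relfinrank_repartitionsOf H.finiteResidue h
  refine ⟨relFinite_sup_sup _ hle hf, ?_⟩
  have hmod := relfinrank_modular (principalRepartitions K F) hle hf
  have hmap := relfinrank_map (diag (K := K) (F := F)) diag_injective
    (riemannRochSpace D) (riemannRochSpace D')
  rw [← map_diag_riemannRochSpace, ← map_diag_riemannRochSpace, hmap] at hmod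
  have := finite_ell H D'
  have hadd := relfinrank_add_finrank (riemannRochSpace_mono h)
  have h3 : (relfinrank (riemannRochSpace D) (riemannRochSpace D') : ℤ)
      = (ell D' : ℤ) - ell D := by
    unfold ell
    rw [← hadd]
    push_cast
    ring
  have h4 : (relfinrank (repartitionsOf D) (repartitionsOf D') : ℤ)
      = (relfinrank (repartitionsOf D ⊔ principalRepartitions K F)
          (repartitionsOf D' ⊔ principalRepartitions K F) : ℤ)
        + (relfinrank (riemannRochSpace D) (riemannRochSpace D') : ℤ) := by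
    exact_mod_cast hmod
  linarith

theorem exists_max_defect (H : Hyp K F) :
    ∃ D₀ : Divisor K F, ∀ D : Divisor K F, D.degree - ell D ≤ D₀.degree - ell D₀ := by
  obtain ⟨γ, hγ⟩ := riemann_inequality H
  obtain ⟨ub, ⟨D₀, hD₀⟩, hub⟩ := Int.exists_greatest_of_bdd
    (P := fun z : ℤ => ∃ D : Divisor K F, D.degree - ell D = z)
    ⟨γ, by rintro z ⟨D, rfl⟩; exact hγ D⟩ ⟨_, (0 : Divisor K F), rfl⟩
  exact ⟨D₀, fun D => by rw [hD₀]; exact hub _ ⟨D, rfl⟩⟩

theorem sup_eq_top (H : Hyp K F) {D₀ : Divisor K F}
    (hmax : ∀ D : Divisor K F, D.degree - ell D ≤ D₀.degree - ell D₀) {D : Divisor K F}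
    (h : D₀ ≤ D) : repartitionsOf D ⊔ principalRepartitions K F = ⊤ := by
  have := H.principal
  rw [eq_top_iff]
  intro α _
  obtain ⟨D', hDD', hα⟩ := exists_mem_repartitionsOf α D
  obtain ⟨hfin, hrank⟩ := relfinrank_sup H hDD'
  have h1 := defect_mono H h
  have h2 := hmax D'
  have h0 : relfinrank (repartitionsOf D ⊔ principalRepartitions K F)
      (repartitionsOf D' ⊔ principalRepartitions K F) = 0 := by
    have h3 : (0 : ℤ) ≤ (relfinrank (repartitionsOf D ⊔ principalRepartitions K F)
      (repartitionsOf D' ⊔ principalRepartitions K F) : ℤ) := Int.natCast_nonneg _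
    have h4 : (relfinrank (repartitionsOf D ⊔ principalRepartitions K F)
      (repartitionsOf D' ⊔ principalRepartitions K F) : ℤ) ≤ 0 := by linarith
    exact_mod_cast le_antisymm h4 h3
  exact le_of_relfinrank_eq_zero hfin h0 (Submodule.mem_sup_left hα)

theorem finite_H1 (H : Hyp K F) (D : Divisor K F) : Module.Finite K (H1 D) := by
  obtain ⟨D₀, hmax⟩ := exists_max_defect H
  have htop := sup_eq_top H hmax (le_sup_right : D₀ ≤ D ⊔ D₀)
  obtain ⟨hfin, -⟩ := relfinrank_sup H (le_sup_left : D ≤ D ⊔ D₀)
  rw [htop] at hfin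
  exact relFinite_top_iff.mp hfin

theorem spec_eq (H : Hyp K F) {D₀ : Divisor K F}
    (hmax : ∀ D : Divisor K F, D.degree - ell D ≤ D₀.degree - ell D₀) (D : Divisor K F) :
    (spec D : ℤ) = (D₀.degree - ell D₀) - (D.degree - ell D) := by
  have htop := sup_eq_top H hmax (le_sup_right : D₀ ≤ D ⊔ D₀)
  obtain ⟨-, hrank⟩ := relfinrank_sup H (le_sup_left : D ≤ D ⊔ D₀)
  rw [htop, relfinrank_top] at hrank
  have h1 := defect_mono H (le_sup_right : D₀ ≤ D ⊔ D₀)
  have h2 := hmax (D ⊔ D₀)
  have h3 : (spec D : ℤ) = (Module.finrank K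
      (↥(repartitions K F) ⧸ (repartitionsOf D ⊔ principalRepartitions K F)) : ℤ) := rfl
  rw [h3, hrank]
  linarith

/-- Riemann's theorem (Riemann–Roch, first form). -/
theorem riemann (H : Hyp K F) (D : Divisor K F) :
    (ell D : ℤ) - spec D = D.degree + ell (0 : Divisor K F) - genusFF K F := by
  obtain ⟨D₀, hmax⟩ := exists_max_defect H
  have h1 := spec_eq H hmax D
  have h2 := spec_eq H hmax (0 : Divisor K F)
  rw [genusFF_eq_spec_zero, h1, h2, map_zero]
  ring

/-- `i` is invariant under adding a principal divisor. -/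
theorem spec_add_principal (H : Hyp K F) (D E : Divisor K F) {z : F} (hz : z ≠ 0)
    (hE : IsDivisorOf z E) : spec (D + E) = spec D := by
  have := H.principal
  obtain ⟨D₀, hmax⟩ := exists_max_defect H
  have h1 := spec_eq H hmax D
  have h2 := spec_eq H hmax (D + E)
  have h3 := degree_eq_zero_of_isDivisorOf hz hE
  have h4 := ell_add_principal D E hz hE
  rw [map_add, h3, h4] at h2
  have h5 : (spec (D + E) : ℤ) = spec D := by rw [h1, h2]; ring
  exact_mod_cast h5

/-- `i` is antitone. -/
theorem spec_anti (H : Hyp K F) {D D' : Divisor K F} (h : D ≤ D') : spec D' ≤ spec D := by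
  obtain ⟨D₀, hmax⟩ := exists_max_defect H
  have h1 := spec_eq H hmax D
  have h2 := spec_eq H hmax D'
  have h3 := defect_mono H h
  have h5 : (spec D' : ℤ) ≤ spec D := by rw [h1, h2]; linarith
  exact_mod_cast h5

/-- `i(D) = 0` for divisors of large degree. -/
theorem exists_spec_eq_zero (H : Hyp K F) :
    ∃ c : ℤ, ∀ D : Divisor K F, c ≤ D.degree → spec D = 0 := by
  have := H.principal
  obtain ⟨D₀, hmax⟩ := exists_max_defect H
  refine ⟨D₀.degree + (D₀.degree - ell D₀) + 1, fun D hD => ?_⟩
  -- `L(D - D₀) ≠ 0`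
  have h1 := hmax (D - D₀)
  rw [map_sub] at h1
  have hpos : 0 < ell (D - D₀) := by
    have : (0 : ℤ) < ell (D - D₀) := by linarith
    exact_mod_cast this
  have hne : riemannRochSpace (D - D₀) ≠ ⊥ := by
    intro hbot
    unfold ell at hpos
    rw [hbot, finrank_bot] at hpos
    exact lt_irrefl _ hpos
  obtain ⟨z, hzmem, hz⟩ := Submodule.exists_mem_ne_zero_of_ne_bot hne
  obtain ⟨E, hE⟩ := exists_isDivisorOf (K := K) z
  have hle : D₀ ≤ D + E := by
    rw [Finsupp.le_def]
    intro v
    have h2 := (mem_riemannRochSpace_iff.mp hzmem v).resolve_left hz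
    rw [Finsupp.add_apply, hE v]
    rw [Finsupp.sub_apply] at h2
    linarith
  have h3 := spec_add_principal H D E hz hE
  have h4 := spec_eq H hmax (D + E)
  have h5 := defect_mono H hle
  have h6 := hmax (D + E)
  have h7 : (spec (D + E) : ℤ) = 0 := by rw [h4]; linarith
  rw [← h3]
  exact_mod_cast h7

end Fermat.Agent.S27.A
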