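/-
S27 Package A, leaf CONST: over an algebraically closed constant field, `L(0) = K`,
all places have degree one, and Riemann's theorem reads `l(D) - i(D) = deg D + 1 - g`.
Statements FROZEN.
Proof of `exists_const`: pick a place `v` (`nonempty_place`); the residue field is `K`
(finite over an algebraically closed field), so `f - c` vanishes at `v` for some `c`; if
`f ≠ c` then `f - c` has a zero and no pole, contradicting `degree (div (f - c)) = 0`.
(Proved by helper5762.)
-/
import Fermat.Agent.S27.A.Riemann
import Fermat.Prelude.Def_AlgebraicCurve_IsCurveOver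

set_option autoImplicit false

open AlgebraicCurve

namespace Fermat.Agent.S27.A

variable {K F : Type*} [Field K] [Field F] [Algebra K F]

namespace ConstAux

/-- Elements of non-negative order lie in the valuation ring. -/
theorem mem_of_ord_nonneg (v : Place K F) {f : F} (h : 0 ≤ v.ord f) :
    f ∈ v.toValuationSubring := by
  rcases eq_or_ne f 0 with rfl | hf
  · exact zero_mem _
  obtain ⟨π, hπ⟩ := IsDiscreteValuationRing.exists_irreducible v.toValuationSubring
  obtain ⟨u, hu⟩ := v.exists_unit_mul_zpow hf hπ
  rw [hu]
  obtain ⟨n, hn⟩ := Int.eq_ofNat_of_zero_le h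
  rw [hn, zpow_natCast]
  exact mul_mem (u : v.toValuationSubring).2 (pow_mem π.2 n)

/-- A nonzero element of the maximal ideal has positive order. -/
theorem ord_pos_of_mem_maximalIdeal (v : Place K F) (a : v.toValuationSubring) (ha : a ≠ 0)
    (hm : a ∈ IsLocalRing.maximalIdeal v.toValuationSubring) : 0 < v.ord (a : F) := by
  have ha' : (a : F) ≠ 0 := by
    simpa [ne_eq, ZeroMemClass.coe_eq_zero] using ha
  have h1 : v.adicValuation (a : F) < 1 := by
    rw [v.adicValuation_coe, IsDedekindDomain.HeightOneSpectrum.intValuation_lt_one_iff_mem,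
      Place.heightOneSpectrum_asIdeal]
    exact hm
  unfold Place.ord
  rw [neg_pos, WithZero.log_lt_iff_lt_exp (v.adicValuation_ne_zero ha'), WithZero.exp_zero]
  exact h1

/-- The degree of a divisor as a sum over its support. -/
theorem degree_eq_sum (D : Divisor K F) :
    D.degree = ∑ v ∈ D.support, D v * (v.deg : ℤ) := by
  simp [Divisor.degree, Finsupp.sum]

/-- An effective divisor with a point of positive multiplicity and all places of degree one has
positive degree. -/
theorem degree_pos_of_nonneg (hdeg : ∀ v : Place K F, v.deg = 1) (D : Divisor K F)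
    (hD : ∀ w : Place K F, 0 ≤ D w) (v : Place K F) (hv : 0 < D v) : 0 < D.degree := by
  rw [degree_eq_sum]
  have hmem : v ∈ D.support := Finsupp.mem_support_iff.mpr hv.ne'
  have hnn : ∀ w ∈ D.support, 0 ≤ D w * (w.deg : ℤ) := fun w _ => by
    rw [hdeg w]; simpa using hD w
  have hle : D v * (v.deg : ℤ) ≤ ∑ w ∈ D.support, D w * (w.deg : ℤ) :=
    Finset.single_le_sum hnn hmem
  have : 0 < D v * (v.deg : ℤ) := by rw [hdeg v]; simpa using hv
  exact lt_of_lt_of_le this hle

end ConstAux

theorem deg_eq_one [IsAlgClosed K] (H : Hyp K F) (v : Place K F) : v.deg = 1 :=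
  haveI : Module.Finite K v.ResidueField := H.finiteResidue v
  v.deg_eq_one_of_isAlgClosed_of_finite

/-- For `f` regular at `v` there is a constant `c` with `f - c` vanishing at `v`. -/
theorem exists_const_sub [IsAlgClosed K] (H : Hyp K F) (v : Place K F) {f : F}
    (hf : 0 ≤ v.ord f) : ∃ c : K, f = algebraMap K F c ∨ 0 < v.ord (f - algebraMap K F c) := by
  have hmem : f ∈ v.toValuationSubring := ConstAux.mem_of_ord_nonneg v hf
  have : Module.Finite K v.ResidueField := H.finiteResidue v
  have : Algebra.IsIntegral K v.ResidueField := Algebra.IsIntegral.of_finite K v.ResidueField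
  have hbij : Function.Bijective (algebraMap K v.ResidueField) :=
    IsAlgClosed.algebraMap_bijective_of_isIntegral
  obtain ⟨c, hc⟩ := hbij.2 (IsLocalRing.residue v.toValuationSubring ⟨f, hmem⟩)
  refine ⟨c, ?_⟩
  by_cases h : f = algebraMap K F c
  · exact Or.inl h
  right
  set a : v.toValuationSubring := ⟨f, hmem⟩ - algebraMap K v.toValuationSubring c with ha
  have hacoe : (a : F) = f - algebraMap K F c := by
    rw [ha]; simp
  have ha0 : a ≠ 0 := by
    intro h0
    apply h
    have : (a : F) = 0 := by rw [h0]; rfl
    rw [hacoe] at this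
    exact sub_eq_zero.mp this
  have hres : IsLocalRing.residue v.toValuationSubring a = 0 := by
    rw [ha, map_sub, sub_eq_zero, ← hc]
    rfl
  have hm : a ∈ IsLocalRing.maximalIdeal v.toValuationSubring :=
    (IsLocalRing.residue_eq_zero_iff a).mp hres
  have := ConstAux.ord_pos_of_mem_maximalIdeal v a ha0 hm
  rwa [hacoe] at this

theorem exists_const [IsAlgClosed K] (H : Hyp K F) {f : F}
    (hf : f ∈ riemannRochSpace (0 : Divisor K F)) : ∃ c : K, f = algebraMap K F c := by
  have : HasPrincipalDivisors K F := H.principal
  obtain ⟨v⟩ := nonempty_place H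
  have hord : ∀ {g : F}, g ∈ riemannRochSpace (0 : Divisor K F) → g ≠ 0 →
      ∀ w : Place K F, 0 ≤ w.ord g := by
    intro g hg hg0 w
    have := (mem_riemannRochSpace_iff.mp hg w).resolve_left hg0
    simpa using this
  rcases eq_or_ne f 0 with rfl | hf0
  · exact ⟨0, by simp⟩
  obtain ⟨c, hc | hc⟩ := exists_const_sub H v (hord hf hf0 v)
  · exact ⟨c, hc⟩
  exfalso
  set g : F := f - algebraMap K F c with hg
  have hg0 : g ≠ 0 := by
    intro h0
    rw [h0] at hc
    simp at hc
  have hgmem : g ∈ riemannRochSpace (0 : Divisor K F) :=
    Submodule.sub_mem _ hf (algebraMap_mem_riemannRochSpace_zero c)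
  obtain ⟨E, hE⟩ := exists_isDivisorOf (K := K) g
  have hE0 : E.degree = 0 := degree_eq_zero_of_isDivisorOf hg0 hE
  have hpos : 0 < E.degree :=
    ConstAux.degree_pos_of_nonneg (deg_eq_one H) E
      (fun w => by rw [hE w]; exact hord hgmem hg0 w) v (by rw [hE v]; exact hc)
  omega

theorem ell_zero [IsAlgClosed K] (H : Hyp K F) : ell (0 : Divisor K F) = 1 := by
  have hspan : riemannRochSpace (0 : Divisor K F) = Submodule.span K {(1 : F)} := by
    apply le_antisymm
    · intro f hf
      obtain ⟨c, rfl⟩ := exists_const H hf
      rw [Submodule.mem_span_singleton]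
      exact ⟨c, by rw [Algebra.smul_def, mul_one]⟩
    · rw [Submodule.span_le, Set.singleton_subset_iff]
      have := algebraMap_mem_riemannRochSpace_zero (K := K) (F := F) 1
      rwa [map_one] at this
  unfold ell
  rw [hspan]
  exact finrank_span_singleton one_ne_zero

/-- Riemann's theorem over an algebraically closed constant field. -/
theorem riemann' [IsAlgClosed K] (H : Hyp K F) (D : Divisor K F) :
    (ell D : ℤ) - spec D = D.degree + 1 - genusFF K F := by
  have h := riemann H D
  rw [ell_zero H] at h
  simpa using h

/-- NB (helper5762): in this frozen statement `.degree` elaborates to Mathlib's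
`Finsupp.degree` (the type ascription does not change the syntactic type `Place K F →₀ ℤ`),
so it holds for any `P`; the intended statement about `Divisor.degree` is
`degree_single_one'` below. -/
theorem degree_single_one [IsAlgClosed K] (H : Hyp K F) (P : Place K F) :
    (Finsupp.single P (1 : ℤ) : Divisor K F).degree = 1 := by
  have _ := H
  exact Finsupp.degree_single P 1

/-- The divisor of a single place has `Divisor.degree` one (intended form of
`degree_single_one`). -/
theorem degree_single_one' [IsAlgClosed K] (H : Hyp K F) (P : Place K F) :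
    Divisor.degree (Finsupp.single P (1 : ℤ) : Divisor K F) = 1 := by
  rw [Divisor.degree_single, deg_eq_one H P]
  simp

end Fermat.Agent.S27.A
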