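/-
S27 Package A, leaf NONSPECIAL (A7): non-special reduced divisors of degree `g`.
Statements FROZEN.
Proof of `finite_spec_add_single_ne`: `i(D+P) ∈ {i(D), i(D) - 1}` (Riemann + `l(D+P) ≤ l(D) + 1`),
and `i(D+P) = i(D)` iff `A(D+P) ≤ A(D) + F`.  If this held for infinitely many `P`, then for
distinct such `P_1..P_r`: `A(D + ∑ P_j) = ∑_j A(D + P_j) ≤ A(D) + F`, so `i(D + ∑ P_j) = i(D) > 0`
for all `r`, contradicting `exists_spec_eq_zero`.
`exists_nonspecial`: start from `D = 0` (`i = g`) and add `g` places one at a time, avoiding
`S`, the places already used and the finite exceptional set; at the end `i = 0`, `l = 1`.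
`infinite_place`: `x - c` has a zero for every `c : K`, and distinct `c` give distinct places.
(Proved by helper5762.)
-/
import Fermat.Agent.S27.A.Const

set_option autoImplicit false

open AlgebraicCurve

namespace Fermat.Agent.S27.A

variable {K F : Type*} [Field K] [Field F] [Algebra K F]

namespace NonSpecialAux

/-- A nonzero constant does not have positive order. -/
theorem not_ord_pos_algebraMap (v : Place K F) {c : K} (hc : c ≠ 0) :
    ¬ 0 < v.ord (algebraMap K F c) := by
  intro hpos
  have hc' : algebraMap K F c ≠ 0 := (map_ne_zero _).mpr hc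
  have h1 : v.adicValuation (algebraMap K F c) ≤ WithZero.exp (-1 : ℤ) :=
    v.adicValuation_le_exp_iff.mpr (Or.inr (by omega))
  have h2 : v.adicValuation (algebraMap K F c⁻¹) ≤ 1 := v.adicValuation_algebraMap_le_one c⁻¹
  have h3 : v.adicValuation (algebraMap K F c) * v.adicValuation (algebraMap K F c⁻¹) = 1 := by
    rw [← map_mul, ← map_mul, mul_inv_cancel₀ hc, map_one, map_one]
  have h4 : v.adicValuation (algebraMap K F c) * v.adicValuation (algebraMap K F c⁻¹)
      ≤ WithZero.exp (-1 : ℤ) * 1 := mul_le_mul' h1 h2
  rw [h3, mul_one] at h4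
  have h5 : (WithZero.exp (-1 : ℤ) : WithZero (Multiplicative ℤ)) < 1 := by
    rw [← WithZero.exp_zero, WithZero.exp_lt_exp]; omega
  exact absurd h4 (not_le.mpr h5)

/-- If `a` and `b` both vanish at `v`, so does `a - b` (unless it is zero). -/
theorem ord_sub_pos (v : Place K F) {a b : F} (ha : 0 < v.ord a) (hb : 0 < v.ord b)
    (hab : a - b ≠ 0) : 0 < v.ord (a - b) := by
  have h1 : v.adicValuation a ≤ WithZero.exp (-1 : ℤ) :=
    v.adicValuation_le_exp_iff.mpr (Or.inr (by omega))
  have h2 : v.adicValuation b ≤ WithZero.exp (-1 : ℤ) :=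
    v.adicValuation_le_exp_iff.mpr (Or.inr (by omega))
  have h3 : v.adicValuation (a - b) ≤ WithZero.exp (-1 : ℤ) :=
    (Valuation.map_sub _ _ _).trans (max_le h1 h2)
  have := (v.adicValuation_le_exp_iff.mp h3).resolve_left hab
  omega

theorem single_one_nonneg (P : Place K F) : (0 : Divisor K F) ≤ Finsupp.single P (1 : ℤ) := by
  intro v
  classical
  simp only [Finsupp.coe_zero, Pi.zero_apply, Finsupp.single_apply]
  split_ifs <;> omega

theorem le_add_single (D : Divisor K F) (P : Place K F) : D ≤ D + Finsupp.single P (1 : ℤ) :=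
  le_add_of_nonneg_right (single_one_nonneg P)

theorem le_add_sum_single (D : Divisor K F) (T : Finset (Place K F)) :
    D ≤ D + ∑ P ∈ T, (Finsupp.single P (1 : ℤ) : Divisor K F) :=
  le_add_of_nonneg_right (Finset.sum_nonneg fun P _ => single_one_nonneg P)

theorem degree_add_single [IsAlgClosed K] (H : Hyp K F) (D : Divisor K F) (P : Place K F) :
    Divisor.degree (D + Finsupp.single P (1 : ℤ)) = Divisor.degree D + 1 := by
  rw [map_add, degree_single_one' H P]

theorem degree_sum_single [IsAlgClosed K] (H : Hyp K F) {ι : Type*} (T : Finset ι)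
    (P : ι → Place K F) :
    Divisor.degree (∑ i ∈ T, (Finsupp.single (P i) (1 : ℤ) : Divisor K F)) = T.card := by
  rw [map_sum, Finset.sum_congr rfl fun i _ => degree_single_one' H (P i)]
  simp

/-- `l` is monotone. -/
theorem ell_mono (H : Hyp K F) {D D' : Divisor K F} (h : D ≤ D') : ell D ≤ ell D' := by
  have := finite_ell H D'
  exact Submodule.finrank_mono (riemannRochSpace_mono h)

/-- The difference of the `i`'s is the relative dimension of the `A(D) + F`. -/
theorem relfinrank_eq_spec_sub [IsAlgClosed K] (H : Hyp K F) {D D' : Divisor K F} (h : D ≤ D') :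
    (relfinrank (repartitionsOf D ⊔ principalRepartitions K F)
        (repartitionsOf D' ⊔ principalRepartitions K F) : ℤ) = (spec D : ℤ) - spec D' := by
  have h1 := (relfinrank_sup H h).2
  have h2 := riemann' H D
  have h3 := riemann' H D'
  rw [h1]
  omega

/-- If `i(D') = i(D)` for `D ≤ D'` then `A(D') ≤ A(D) + F`. -/
theorem repartitionsOf_le_of_spec_eq [IsAlgClosed K] (H : Hyp K F) {D D' : Divisor K F}
    (h : D ≤ D') (hs : spec D' = spec D) :
    repartitionsOf D' ≤ repartitionsOf D ⊔ principalRepartitions K F := by
  have h0 : relfinrank (repartitionsOf D ⊔ principalRepartitions K F)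
      (repartitionsOf D' ⊔ principalRepartitions K F) = 0 := by
    have := relfinrank_eq_spec_sub H h
    rw [hs] at this
    omega
  exact le_sup_left.trans (le_of_relfinrank_eq_zero (relfinrank_sup H h).1 h0)

/-- If `A(D') ≤ A(D) + F` for `D ≤ D'` then `i(D') = i(D)`. -/
theorem spec_eq_of_repartitionsOf_le [IsAlgClosed K] (H : Hyp K F) {D D' : Divisor K F}
    (h : D ≤ D')
    (hle : repartitionsOf D' ≤ repartitionsOf D ⊔ principalRepartitions K F) :
    spec D' = spec D := by
  have h0 : relfinrank (repartitionsOf D ⊔ principalRepartitions K F)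
      (repartitionsOf D' ⊔ principalRepartitions K F) = 0 :=
    relfinrank_eq_zero_of_le (sup_le hle le_sup_right)
  have := relfinrank_eq_spec_sub H h
  rw [h0] at this
  have h2 := spec_anti H h
  omega

/-- Splitting a repartition at one place: if `A(D + Q) ≤ W` and `A(D') ≤ W`, where `D'` agrees
with `D` at `Q`, then `A(D' + Q) ≤ W`. -/
theorem repartitionsOf_add_single_le (W : Submodule K ↥(repartitions K F)) (D D' : Divisor K F)
    (Q : Place K F) (hQ : D' Q = D Q)
    (h1 : repartitionsOf (D + Finsupp.single Q 1) ≤ W) (h2 : repartitionsOf D' ≤ W) :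
    repartitionsOf (D' + Finsupp.single Q 1) ≤ W := by
  classical
  intro α hα
  -- the part of `α` at `Q`
  have hβ : ∀ v : Place K F, v.adicValuation ((fun w => if w = Q then (α : Place K F → F) w else 0) v)
      ≤ WithZero.exp ((D + Finsupp.single Q (1 : ℤ) : Divisor K F) v) := by
    intro v
    by_cases hv : v = Q
    · subst hv
      have := hα v
      simp only [Finsupp.coe_add, Pi.add_apply, Finsupp.single_eq_same, if_true] at this ⊢
      rwa [hQ] at this
    · simp [hv]
  let β : ↥(repartitions K F) :=
    ⟨fun w => if w = Q then (α : Place K F → F) w else 0,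
      mem_repartitions_of_forall_le_exp _ _ hβ⟩
  have hβmem : β ∈ repartitionsOf (D + Finsupp.single Q 1) := hβ
  have hγmem : α - β ∈ repartitionsOf D' := by
    intro v
    have hcoe : ((α - β : ↥(repartitions K F)) : Place K F → F) v
        = (α : Place K F → F) v - (if v = Q then (α : Place K F → F) v else 0) := rfl
    rw [hcoe]
    by_cases hv : v = Q
    · simp [hv]
    · have := hα v
      simp only [Finsupp.coe_add, Pi.add_apply, Finsupp.single_apply, if_neg (Ne.symm hv),
        add_zero] at this
      simpa [hv] using this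
  have : α = (α - β) + β := by abel
  rw [this]
  exact W.add_mem (h2 hγmem) (h1 hβmem)

/-- If `A(D + P) ≤ W` for all `P ∈ T` and `A(D) ≤ W`, then `A(D + ∑_{P ∈ T} P) ≤ W`. -/
theorem repartitionsOf_add_sum_le (W : Submodule K ↥(repartitions K F)) (D : Divisor K F)
    (h0 : repartitionsOf D ≤ W) (T : Finset (Place K F))
    (hT : ∀ P ∈ T, repartitionsOf (D + Finsupp.single P 1) ≤ W) :
    repartitionsOf (D + ∑ P ∈ T, (Finsupp.single P (1 : ℤ) : Divisor K F)) ≤ W := by
  classical
  induction T using Finset.induction_on with
  | empty => simpa using h0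
  | insert Q T hQT ih =>
    have ih' := ih fun P hP => hT P (Finset.mem_insert_of_mem hP)
    rw [Finset.sum_insert hQT, add_comm (Finsupp.single Q (1 : ℤ)), ← add_assoc]
    refine repartitionsOf_add_single_le W D _ Q ?_ (hT Q (Finset.mem_insert_self Q T)) ih'
    rw [Finsupp.add_apply, Finsupp.finsetSum_apply]
    have : ∑ P ∈ T, (Finsupp.single P (1 : ℤ) : Divisor K F) Q = 0 :=
      Finset.sum_eq_zero fun P hP => by
        rw [Finsupp.single_apply, if_neg]
        rintro rfl
        exact hQT hP
    rw [this, add_zero]

end NonSpecialAux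

open NonSpecialAux

theorem infinite_place [IsAlgClosed K] (H : Hyp K F) : Infinite (Place K F) := by
  obtain ⟨x, hx, -, -⟩ := H.supply
  have hzero : ∀ c : K, ∃ v : Place K F, 0 < v.ord (x - algebraMap K F c) := by
    intro c
    by_contra hcon
    have hcon : ∀ v : Place K F, v.ord (x - algebraMap K F c) ≤ 0 := fun v =>
      not_lt.mp fun hv => hcon ⟨v, hv⟩
    have hy0 : x - algebraMap K F c ≠ 0 := by
      intro h0
      apply hx
      rw [sub_eq_zero.mp h0]
      exact isAlgebraic_algebraMap c
    have hmem : (x - algebraMap K F c)⁻¹ ∈ riemannRochSpace (0 : Divisor K F) := by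
      rw [mem_riemannRochSpace_iff]
      intro v
      right
      rw [Place.ord_inv]
      have := hcon v
      simp only [Finsupp.coe_zero, Pi.zero_apply, neg_zero]
      omega
    obtain ⟨c', hc'⟩ := exists_const H hmem
    apply hx
    have hxe : x = algebraMap K F c + (algebraMap K F c')⁻¹ := by
      rw [← hc', inv_inv]; ring
    rw [hxe, ← map_inv₀, ← map_add]
    exact isAlgebraic_algebraMap _
  choose w hw using hzero
  have hinj : Function.Injective w := by
    intro c c' hcc
    by_contra hne
    have h1 := hw c
    have h2 := hw c'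
    rw [hcc] at h1
    have hsub : (x - algebraMap K F c') - (x - algebraMap K F c) = algebraMap K F (c - c') := by
      rw [map_sub]; ring
    have hne' : c - c' ≠ 0 := sub_ne_zero.mpr hne
    have hne'' : (x - algebraMap K F c') - (x - algebraMap K F c) ≠ 0 := by
      rw [hsub]; exact (map_ne_zero _).mpr hne'
    have := ord_sub_pos (w c') h2 h1 hne''
    rw [hsub] at this
    exact not_ord_pos_algebraMap (w c') hne' this
  have : Infinite K := IsAlgClosed.instInfinite
  exact Infinite.of_injective w hinj

theorem spec_add_single_le [IsAlgClosed K] (H : Hyp K F) (D : Divisor K F) (P : Place K F) :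
    spec (D + Finsupp.single P 1) ≤ spec D ∧ spec D ≤ spec (D + Finsupp.single P 1) + 1 := by
  have hp : HasPrincipalDivisors K F := H.principal
  have hne : Nonempty (Place K F) := nonempty_place H
  have h1 := riemann' H D
  have h2 := riemann' H (D + Finsupp.single P 1)
  have h3 := degree_add_single H D P
  have h4 := ell_mono H (le_add_single D P)
  have h5 := ell_sub_le H.finiteResidue (le_add_single D P)
  constructor <;> omega

theorem finite_spec_add_single_ne [IsAlgClosed K] (H : Hyp K F) (D : Divisor K F)
    (hD : 0 < spec D) :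
    {P : Place K F | spec (D + Finsupp.single P 1) + 1 ≠ spec D}.Finite := by
  by_contra hinf
  obtain ⟨c, hc⟩ := exists_spec_eq_zero H
  obtain ⟨T, hTsub, hTcard⟩ :=
    (Set.not_finite.mp hinf : Set.Infinite _).exists_subset_card_eq (c - Divisor.degree D).toNat
  set W : Submodule K ↥(repartitions K F) := repartitionsOf D ⊔ principalRepartitions K F with hW
  have hT : ∀ P ∈ T, repartitionsOf (D + Finsupp.single P 1) ≤ W := by
    intro P hP
    have hbad : spec (D + Finsupp.single P 1) + 1 ≠ spec D := hTsub hP
    have hle := spec_add_single_le H D P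
    exact repartitionsOf_le_of_spec_eq H (le_add_single D P) (by omega)
  have hle : repartitionsOf (D + ∑ P ∈ T, (Finsupp.single P (1 : ℤ) : Divisor K F)) ≤ W :=
    repartitionsOf_add_sum_le W D le_sup_left T hT
  have hspec := spec_eq_of_repartitionsOf_le H (le_add_sum_single D T) hle
  have hdeg : Divisor.degree (D + ∑ P ∈ T, (Finsupp.single P (1 : ℤ) : Divisor K F))
      = Divisor.degree D + T.card := by
    rw [map_add, degree_sum_single H T fun P => P]
  have h0 := hc (D + ∑ P ∈ T, (Finsupp.single P (1 : ℤ) : Divisor K F)) (by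
    rw [hdeg, hTcard]
    have := Int.self_le_toNat (c - Divisor.degree D)
    omega)
  omega

/-- Non-special reduced divisors of degree `g` avoiding any finite set of places. -/
theorem exists_nonspecial [IsAlgClosed K] (H : Hyp K F) (S : Finset (Place K F)) :
    ∃ P : Fin (genusFF K F) → Place K F, Function.Injective P ∧ (∀ i, P i ∉ S) ∧
      ell (∑ i, (Finsupp.single (P i) (1 : ℤ) : Divisor K F)) = 1 := by
  have hinf : Infinite (Place K F) := infinite_place H
  have key : ∀ k : ℕ, k ≤ genusFF K F →
      ∃ P : Fin k → Place K F, Function.Injective P ∧ (∀ i, P i ∉ S) ∧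
        spec (∑ i, (Finsupp.single (P i) (1 : ℤ) : Divisor K F)) + k = genusFF K F := by
    intro k
    induction k with
    | zero =>
      intro _
      refine ⟨Fin.elim0, fun i => i.elim0, fun i => i.elim0, ?_⟩
      simp [genusFF_eq_spec_zero]
    | succ k ih =>
      intro hk
      obtain ⟨P, hPinj, hPS, hPspec⟩ := ih (by omega)
      set D : Divisor K F := ∑ i, (Finsupp.single (P i) (1 : ℤ) : Divisor K F) with hDdef
      have hpos : 0 < spec D := by omega
      have hfin : ({Q : Place K F | spec (D + Finsupp.single Q 1) + 1 ≠ spec D} ∪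
          (↑S ∪ Set.range P)).Finite :=
        (finite_spec_add_single_ne H D hpos).union
          (S.finite_toSet.union (Set.finite_range P))
      obtain ⟨Q, hQ⟩ := hfin.infinite_compl.nonempty
      simp only [Set.mem_compl_iff, Set.mem_union, Set.mem_ofPred_eq, Finset.mem_coe,
        Set.mem_range, not_or, not_not, not_exists] at hQ
      obtain ⟨hQspec, hQS, hQP⟩ := hQ
      refine ⟨Fin.snoc P Q, ?_, ?_, ?_⟩
      · intro i j hij
        induction i using Fin.lastCases with
        | last =>
          induction j using Fin.lastCases with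
          | last => rfl
          | cast j =>
            rw [Fin.snoc_last, Fin.snoc_castSucc] at hij
            exact absurd hij.symm (hQP j)
        | cast i =>
          induction j using Fin.lastCases with
          | last =>
            rw [Fin.snoc_last, Fin.snoc_castSucc] at hij
            exact absurd hij (hQP i)
          | cast j =>
            rw [Fin.snoc_castSucc, Fin.snoc_castSucc] at hij
            rw [hPinj hij]
      · intro i
        induction i using Fin.lastCases with
        | last => rw [Fin.snoc_last]; exact hQS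
        | cast i => rw [Fin.snoc_castSucc]; exact hPS i
      · rw [Fin.sum_univ_castSucc]
        simp only [Fin.snoc_castSucc, Fin.snoc_last]
        rw [← hDdef]
        omega
  obtain ⟨P, hPinj, hPS, hPspec⟩ := key (genusFF K F) le_rfl
  refine ⟨P, hPinj, hPS, ?_⟩
  have hr := riemann' H (∑ i, (Finsupp.single (P i) (1 : ℤ) : Divisor K F))
  have hdeg := degree_sum_single H (Finset.univ : Finset (Fin (genusFF K F))) P
  rw [Finset.card_univ, Fintype.card_fin] at hdeg
  have h0 : spec (∑ i, (Finsupp.single (P i) (1 : ℤ) : Divisor K F)) = 0 := by omega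
  rw [h0] at hr
  have hr' : (ell (∑ i, (Finsupp.single (P i) (1 : ℤ) : Divisor K F)) : ℤ) = 1 := by
    have hdeg' : Divisor.degree (∑ i, (Finsupp.single (P i) (1 : ℤ) : Divisor K F))
        = (genusFF K F : ℤ) := hdeg
    have hr2 : (ell (∑ i, (Finsupp.single (P i) (1 : ℤ) : Divisor K F)) : ℤ) - (0 : ℕ)
        = Divisor.degree (∑ i, (Finsupp.single (P i) (1 : ℤ) : Divisor K F)) + 1
          - (genusFF K F : ℤ) := hr
    rw [hdeg'] at hr2
    simpa using hr2
  exact_mod_cast hr'

end Fermat.Agent.S27.A
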