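/-
S27 Package A, leaf LINALG (pure linear algebra over a field; Mathlib only).
Statements FROZEN (skeleton of helper8976).  Proofs by helper5942.
-/
import Fermat.Agent.S27.A.Defs

set_option autoImplicit false

namespace Fermat.Agent.S27.A

variable {K : Type*} [Field K] {M : Type*} [AddCommGroup M] [Module K M]

namespace LinAlgAux5942

theorem finite_of_exact {U X Y : Type*} [AddCommGroup U] [Module K U] [AddCommGroup X]
    [Module K X] [AddCommGroup Y] [Module K Y] (f : U →ₗ[K] X) (g : X →ₗ[K] Y)
    (N : Submodule K U) (hker : LinearMap.ker f = N) (hg : Function.Surjective g)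
    (hex : LinearMap.ker g = LinearMap.range f)
    (h1 : Module.Finite K (U ⧸ N)) (h2 : Module.Finite K Y) : Module.Finite K X := by
  subst hker
  haveI : Module.Finite K (LinearMap.range f) := Module.Finite.equiv f.quotKerEquivRange
  haveI : Module.Finite K (X ⧸ LinearMap.range f) :=
    Module.Finite.equiv
      ((g.quotKerEquivOfSurjective hg).symm.trans (Submodule.quotEquivOfEq _ _ hex))
  exact Module.Finite.of_submodule_quotient (LinearMap.range f)

theorem finrank_of_exact {U X Y : Type*} [AddCommGroup U] [Module K U] [AddCommGroup X]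
    [Module K X] [AddCommGroup Y] [Module K Y] (f : U →ₗ[K] X) (g : X →ₗ[K] Y)
    (N : Submodule K U) (hker : LinearMap.ker f = N) (hg : Function.Surjective g)
    (hex : LinearMap.ker g = LinearMap.range f)
    (h1 : Module.Finite K (U ⧸ N)) (h2 : Module.Finite K Y) :
    Module.finrank K X = Module.finrank K (U ⧸ N) + Module.finrank K Y := by
  haveI hX : Module.Finite K X := finite_of_exact f g N hker hg hex h1 h2
  subst hker
  have e1 : Module.finrank K (X ⧸ LinearMap.range f) = Module.finrank K Y :=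
    LinearEquiv.finrank_eq
      ((Submodule.quotEquivOfEq _ _ hex).symm.trans (g.quotKerEquivOfSurjective hg))
  have e2 : Module.finrank K (U ⧸ LinearMap.ker f) = Module.finrank K (LinearMap.range f) :=
    LinearEquiv.finrank_eq f.quotKerEquivRange
  have e3 := Submodule.finrank_quotient_add_finrank (LinearMap.range f)
  omega

theorem finite_left_of_exact {U X : Type*} [AddCommGroup U] [Module K U] [AddCommGroup X]
    [Module K X] (f : U →ₗ[K] X) (N : Submodule K U) (hker : LinearMap.ker f = N)
    (hX : Module.Finite K X) : Module.Finite K (U ⧸ N) := by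
  subst hker
  haveI : Module.Finite K (LinearMap.range f) := inferInstance
  exact Module.Finite.equiv f.quotKerEquivRange.symm

theorem mem_submoduleOf' {A B : Submodule K M} (x : B) :
    x ∈ A.submoduleOf B ↔ (x : M) ∈ A := Iff.rfl

/-- the map `B → C/(A∩C)` for `B ≤ C`. -/
noncomputable def incl (A : Submodule K M) {B C : Submodule K M} (hBC : B ≤ C) :
    ↥B →ₗ[K] (↥C ⧸ A.submoduleOf C) :=
  (A.submoduleOf C).mkQ ∘ₗ Submodule.inclusion hBC

theorem incl_apply (A : Submodule K M) {B C : Submodule K M} (hBC : B ≤ C) (x : B) :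
    incl A hBC x = (A.submoduleOf C).mkQ (Submodule.inclusion hBC x) := rfl

theorem ker_incl (A : Submodule K M) {B C : Submodule K M} (hBC : B ≤ C) :
    LinearMap.ker (incl A hBC) = A.submoduleOf B := by
  ext x
  rw [LinearMap.mem_ker, incl_apply, Submodule.mkQ_apply, Submodule.Quotient.mk_eq_zero]
  rfl

theorem range_incl (A : Submodule K M) {B C : Submodule K M} (hBC : B ≤ C) :
    LinearMap.range (incl A hBC) = (B.submoduleOf C).map (A.submoduleOf C).mkQ := by
  unfold incl
  rw [LinearMap.range_comp, Submodule.range_inclusion]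
  rfl

end LinAlgAux5942

open LinAlgAux5942

theorem relFinite_of_le {A B : Submodule K M} (h : B ≤ A) : RelFinite A B := by
  unfold RelFinite
  have h1 : A.submoduleOf B = ⊤ := Submodule.comap_subtype_eq_top.mpr h
  haveI : Subsingleton (↥B ⧸ A.submoduleOf B) := by
    rw [h1]; infer_instance
  exact Module.Finite.of_finite

theorem relfinrank_eq_zero_of_le {A B : Submodule K M} (h : B ≤ A) : relfinrank A B = 0 := by
  unfold relfinrank
  have h1 : A.submoduleOf B = ⊤ := Submodule.comap_subtype_eq_top.mpr h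
  haveI : Subsingleton (↥B ⧸ A.submoduleOf B) := by
    rw [h1]; infer_instance
  exact Module.finrank_zero_of_subsingleton

theorem le_of_relfinrank_eq_zero {A B : Submodule K M} (hf : RelFinite A B)
    (h : relfinrank A B = 0) : B ≤ A := by
  unfold RelFinite at hf
  unfold relfinrank at h
  haveI := hf
  have hs : Subsingleton (↥B ⧸ A.submoduleOf B) := Module.finrank_zero_iff.mp h
  intro x hx
  have h0 : (A.submoduleOf B).mkQ ⟨x, hx⟩ = 0 := Subsingleton.elim _ _
  rw [Submodule.mkQ_apply, Submodule.Quotient.mk_eq_zero] at h0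
  exact h0

theorem relFinite_trans {A B C : Submodule K M} (hAB : A ≤ B) (hBC : B ≤ C)
    (h1 : RelFinite A B) (h2 : RelFinite B C) : RelFinite A C := by
  unfold RelFinite at *
  have hle : A.submoduleOf C ≤ LinearMap.ker (B.submoduleOf C).mkQ := by
    rw [Submodule.ker_mkQ]
    intro x hx
    exact hAB hx
  refine finite_of_exact (incl A hBC) ((A.submoduleOf C).liftQ (B.submoduleOf C).mkQ hle)
    (A.submoduleOf B) (ker_incl A hBC) ?_ ?_ h1 h2
  · rw [← LinearMap.range_eq_top, Submodule.range_liftQ, Submodule.range_mkQ]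
  · rw [Submodule.ker_liftQ, Submodule.ker_mkQ, range_incl]

theorem relfinrank_trans {A B C : Submodule K M} (hAB : A ≤ B) (hBC : B ≤ C)
    (h1 : RelFinite A B) (h2 : RelFinite B C) :
    relfinrank A C = relfinrank A B + relfinrank B C := by
  unfold RelFinite at *
  unfold relfinrank
  have hle : A.submoduleOf C ≤ LinearMap.ker (B.submoduleOf C).mkQ := by
    rw [Submodule.ker_mkQ]
    intro x hx
    exact hAB hx
  refine finrank_of_exact (incl A hBC) ((A.submoduleOf C).liftQ (B.submoduleOf C).mkQ hle)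
    (A.submoduleOf B) (ker_incl A hBC) ?_ ?_ h1 h2
  · rw [← LinearMap.range_eq_top, Submodule.range_liftQ, Submodule.range_mkQ]
  · rw [Submodule.ker_liftQ, Submodule.ker_mkQ, range_incl]

namespace LinAlgAux5942

/-- the map `U'/(U∩U') → (U'+W)/((U+W)∩(U'+W))`. -/
noncomputable def supMap (U U' W : Submodule K M) (h : U ≤ U') :
    (↥U' ⧸ U.submoduleOf U') →ₗ[K] (↥(U' ⊔ W) ⧸ (U ⊔ W).submoduleOf (U' ⊔ W)) :=
  (U.submoduleOf U').liftQ (incl (U ⊔ W) (le_sup_left : U' ≤ U' ⊔ W)) (by
    rw [ker_incl]
    intro x hx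
    exact (le_sup_left : U ≤ U ⊔ W) hx)

theorem supMap_surjective (U U' W : Submodule K M) (h : U ≤ U') :
    Function.Surjective (supMap U U' W h) := by
  intro y
  obtain ⟨⟨z, hz⟩, rfl⟩ := Submodule.Quotient.mk_surjective _ y
  obtain ⟨u, hu, w, hw, rfl⟩ := Submodule.mem_sup.mp hz
  refine ⟨(U.submoduleOf U').mkQ ⟨u, hu⟩, ?_⟩
  unfold supMap
  rw [Submodule.mkQ_apply, Submodule.liftQ_apply, incl_apply, Submodule.mkQ_apply,
    Submodule.Quotient.eq]
  show (u - (u + w) : M) ∈ U ⊔ W
  have : u - (u + w) = -w := by abel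
  rw [this]
  exact Submodule.neg_mem _ ((le_sup_right : W ≤ U ⊔ W) hw)

theorem ker_supMap (U U' W : Submodule K M) (h : U ≤ U') :
    LinearMap.ker (supMap U U' W h) =
      LinearMap.range (incl U (inf_le_left : U' ⊓ W ≤ U')) := by
  unfold supMap
  rw [Submodule.ker_liftQ, ker_incl, range_incl]
  apply le_antisymm
  · rintro _ ⟨⟨x, hx⟩, hxU, rfl⟩
    have hxU' : x ∈ U ⊔ W := hxU
    obtain ⟨u, hu, w, hw, rfl⟩ := Submodule.mem_sup.mp hxU'
    have hwU' : w ∈ U' := by
      have : w = (u + w) - u := by abel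
      rw [this]
      exact Submodule.sub_mem _ hx (h hu)
    refine ⟨⟨w, hwU'⟩, ?_, ?_⟩
    · show w ∈ U' ⊓ W
      exact ⟨hwU', hw⟩
    · rw [Submodule.mkQ_apply, Submodule.mkQ_apply, Submodule.Quotient.eq]
      show (w - (u + w) : M) ∈ U
      have : w - (u + w) = -u := by abel
      rw [this]
      exact Submodule.neg_mem _ hu
  · rintro _ ⟨⟨x, hx⟩, hxW, rfl⟩
    have hxW' : x ∈ U' ⊓ W := hxW
    exact ⟨⟨x, hx⟩, (le_sup_right : W ≤ U ⊔ W) hxW'.2, rfl⟩

theorem ker_incl_inf (U U' W : Submodule K M) (h : U ≤ U') :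
    LinearMap.ker (incl U (inf_le_left : U' ⊓ W ≤ U')) = (U ⊓ W).submoduleOf (U' ⊓ W) := by
  rw [ker_incl]
  ext ⟨x, hx⟩
  constructor
  · intro hxU
    exact ⟨hxU, hx.2⟩
  · intro hxU
    exact hxU.1

end LinAlgAux5942

theorem relFinite_sup_sup {U U' : Submodule K M} (W : Submodule K M) (h : U ≤ U')
    (hf : RelFinite U U') : RelFinite (U ⊔ W) (U' ⊔ W) := by
  unfold RelFinite at *
  haveI := hf
  exact Module.Finite.of_surjective (supMap U U' W h) (supMap_surjective U U' W h)

theorem relFinite_inf_inf {U U' : Submodule K M} (W : Submodule K M) (h : U ≤ U')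
    (hf : RelFinite U U') : RelFinite (U ⊓ W) (U' ⊓ W) := by
  unfold RelFinite at *
  exact finite_left_of_exact (incl U (inf_le_left : U' ⊓ W ≤ U')) _ (ker_incl_inf U U' W h) hf

/-- `dim U'/U = dim (U'+W)/(U+W) + dim (U'∩W)/(U∩W)`. -/
theorem relfinrank_modular {U U' : Submodule K M} (W : Submodule K M) (h : U ≤ U')
    (hf : RelFinite U U') :
    relfinrank U U' = relfinrank (U ⊔ W) (U' ⊔ W) + relfinrank (U ⊓ W) (U' ⊓ W) := by
  have h1 := relFinite_sup_sup W h hf
  have h2 := relFinite_inf_inf W h hf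
  unfold RelFinite at *
  unfold relfinrank
  rw [add_comm]
  exact finrank_of_exact (incl U (inf_le_left : U' ⊓ W ≤ U')) (supMap U U' W h) _
    (ker_incl_inf U U' W h) (supMap_surjective U U' W h) (ker_supMap U U' W h) h2 h1

namespace LinAlgAux5942

/-- `⊤/(A∩⊤) ≃ M/A`. -/
noncomputable def topEquiv' (A : Submodule K M) :
    (↥(⊤ : Submodule K M) ⧸ A.submoduleOf ⊤) ≃ₗ[K] (M ⧸ A) :=
  Submodule.Quotient.equiv (A.submoduleOf ⊤) A Submodule.topEquiv (by
    ext x
    constructor
    · rintro ⟨⟨y, hy⟩, hyA, rfl⟩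
      exact hyA
    · intro hx
      exact ⟨⟨x, Submodule.mem_top⟩, hx, rfl⟩)

/-- `f(B)/(f(A)∩f(B)) ≃ B/(A∩B)` for injective `f`. -/
noncomputable def mapEquiv' {M' : Type*} [AddCommGroup M'] [Module K M'] (f : M →ₗ[K] M')
    (hf : Function.Injective f) (A B : Submodule K M) :
    (↥B ⧸ A.submoduleOf B) ≃ₗ[K] (↥(B.map f) ⧸ (A.map f).submoduleOf (B.map f)) :=
  Submodule.Quotient.equiv (A.submoduleOf B) ((A.map f).submoduleOf (B.map f))
    (Submodule.equivMapOfInjective f hf B) (by
    ext ⟨y, hy⟩
    constructor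
    · rintro ⟨⟨x, hx⟩, hxA, hxy⟩
      have hxA' : x ∈ A := hxA
      have : f x = y := congrArg Subtype.val hxy
      show y ∈ A.map f
      exact ⟨x, hxA', this⟩
    · intro hyA
      have hyA' : y ∈ A.map f := hyA
      obtain ⟨a, ha, rfl⟩ := hyA'
      obtain ⟨b, hb, hab⟩ := hy
      have hba : b = a := hf hab
      subst hba
      exact ⟨⟨b, hb⟩, ha, Subtype.ext rfl⟩)

end LinAlgAux5942

theorem relFinite_top_iff {A : Submodule K M} : RelFinite A ⊤ ↔ Module.Finite K (M ⧸ A) := by
  unfold RelFinite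
  constructor
  · intro h
    exact Module.Finite.equiv (topEquiv' A)
  · intro h
    exact Module.Finite.equiv (topEquiv' A).symm

theorem relfinrank_top (A : Submodule K M) : relfinrank A ⊤ = Module.finrank K (M ⧸ A) :=
  LinearEquiv.finrank_eq (topEquiv' A)

theorem relFinite_map {M' : Type*} [AddCommGroup M'] [Module K M'] (f : M →ₗ[K] M')
    (hf : Function.Injective f) {A B : Submodule K M} :
    RelFinite (A.map f) (B.map f) ↔ RelFinite A B := by
  unfold RelFinite
  constructor
  · intro h
    exact Module.Finite.equiv (mapEquiv' f hf A B).symm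
  · intro h
    exact Module.Finite.equiv (mapEquiv' f hf A B)

theorem relfinrank_map {M' : Type*} [AddCommGroup M'] [Module K M'] (f : M →ₗ[K] M')
    (hf : Function.Injective f) (A B : Submodule K M) :
    relfinrank (A.map f) (B.map f) = relfinrank A B :=
  (LinearEquiv.finrank_eq (mapEquiv' f hf A B)).symm

theorem relFinite_of_finite (A B : Submodule K M) [Module.Finite K B] : RelFinite A B := by
  unfold RelFinite
  infer_instance

theorem relfinrank_add_finrank {A B : Submodule K M} (h : A ≤ B) [Module.Finite K B] :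
    relfinrank A B + Module.finrank K A = Module.finrank K B := by
  unfold relfinrank
  rw [← LinearEquiv.finrank_eq (Submodule.submoduleOfEquivOfLe h)]
  exact Submodule.finrank_quotient_add_finrank (A.submoduleOf B)

theorem finite_of_relFinite {A B : Submodule K M} (h : A ≤ B) (hA : Module.Finite K A)
    (hf : RelFinite A B) : Module.Finite K B := by
  unfold RelFinite at hf
  haveI := hf
  haveI : Module.Finite K (A.submoduleOf B) :=
    Module.Finite.equiv (Submodule.submoduleOfEquivOfLe h).symm
  exact Module.Finite.of_submodule_quotient (A.submoduleOf B)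

end Fermat.Agent.S27.A
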